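import Fermat.Agent.ModularFunctionField.LevelOne
import Fermat.Prelude.Thm_ModularCurve_coeff_jqModC_neg_one
import Mathlib.Analysis.Analytic.Order
import Mathlib.Analysis.Analytic.Uniqueness
import Mathlib.Analysis.Complex.CauchyIntegral

/-!
# The order of `j - j(τ)` at `τ`

It is `1`, `2` or `3`: from `E₄ ^ 3 = j Δ`, `E₄ ^ 3 - E₆ ^ 2 = 1728 Δ` and
`Dj · Δ = -E₄ ^ 2 E₆`.
-/

set_option autoImplicit false

noncomputable section

open UpperHalfPlane Filter Topology Derivative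
open scoped Manifold ModularForm MatrixGroups

namespace Fermat.Agent.KummerDivisor

open ModularFunctionField

local notation "Δ" => ModularForm.discriminant

/-- The order of vanishing at `τ` of a function on the upper half plane. -/
def ordAt (τ : ℍ) (f : ℍ → ℂ) : ℕ∞ := analyticOrderAt (f ∘ UpperHalfPlane.ofComplex) (τ : ℂ)

/-- A holomorphic function on `ℍ`, read on `ℂ`, is analytic at each point of `ℍ`. -/
theorem analyticAt_comp_ofComplex {f : ℍ → ℂ} (hf : MDiff f) (τ : ℍ) :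
    AnalyticAt ℂ (f ∘ UpperHalfPlane.ofComplex) (τ : ℂ) :=
  (UpperHalfPlane.mdifferentiable_iff.mp hf).analyticAt
    (isOpen_upperHalfPlaneSet.mem_nhds τ.im_pos)

/-- The order at `τ` vanishes exactly when the function is nonzero at `τ`. -/
theorem ordAt_eq_zero_iff {f : ℍ → ℂ} (hf : MDiff f) (τ : ℍ) : ordAt τ f = 0 ↔ f τ ≠ 0 := by
  rw [ordAt, (analyticAt_comp_ofComplex hf τ).analyticOrderAt_eq_zero]
  simp

/-- Equal functions have equal orders. -/
theorem ordAt_congr {f g : ℍ → ℂ} (h : ∀ z, f z = g z) (τ : ℍ) : ordAt τ f = ordAt τ g := by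
  rw [funext h]

/-- The order of a product. -/
theorem ordAt_mul {f g : ℍ → ℂ} (hf : MDiff f) (hg : MDiff g) (τ : ℍ) :
    ordAt τ (f * g) = ordAt τ f + ordAt τ g := by
  rw [ordAt, ordAt, ordAt, ← analyticOrderAt_mul (analyticAt_comp_ofComplex hf τ)
    (analyticAt_comp_ofComplex hg τ)]
  rfl

/-- The order of a power. -/
theorem ordAt_pow {f : ℍ → ℂ} (hf : MDiff f) (τ : ℍ) (n : ℕ) :
    ordAt τ (f ^ n) = n • ordAt τ f :=
  analyticOrderAt_pow (analyticAt_comp_ofComplex hf τ) n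

/-- A holomorphic function of infinite order at a point vanishes identically. -/
theorem eq_zero_of_ordAt_eq_top {f : ℍ → ℂ} (hf : MDiff f) {τ : ℍ} (h : ordAt τ f = ⊤) (z : ℍ) :
    f z = 0 := by
  rw [ordAt, analyticOrderAt_eq_top] at h
  have hd := (UpperHalfPlane.mdifferentiable_iff.mp hf).analyticOnNhd isOpen_upperHalfPlaneSet
  have := hd.eqOn_zero_of_preconnected_of_eventuallyEq_zero
    ((convex_halfSpace_im_gt 0).isPreconnected) τ.im_pos h z.im_pos
  simpa using this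

theorem mdiff_E4 : MDiff (ModularForm.E₄ : ℍ → ℂ) := ModularFormClass.holo _
theorem mdiff_E6 : MDiff (ModularForm.E₆ : ℍ → ℂ) := ModularFormClass.holo _
theorem mdiff_delta : MDiff (Δ : ℍ → ℂ) := ModularFormClass.holo CuspForm.discriminant

theorem jFun_mul_delta (τ : ℍ) : jFun τ * Δ τ = ModularForm.E₄ τ ^ 3 := by
  rw [jFun, inv_mul_cancel_right₀ (ModularForm.discriminant_ne_zero τ)]

theorem jFun_sub_mul_delta (τ : ℍ) : (jFun τ - 1728) * Δ τ = ModularForm.E₆ τ ^ 2 := by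
  rw [sub_mul, jFun_mul_delta, ModularForm.discriminant_eq_E₄_cube_sub_E₆_sq]
  ring

/-- `Dj · Δ = -E₄ ^ 2 E₆`. -/
theorem D_jFun_mul_delta (τ : ℍ) :
    D jFun τ * Δ τ = -(ModularForm.E₄ τ ^ 2 * ModularForm.E₆ τ) := by
  have h1 : D (fun z => jFun z * Δ z) τ = D (fun z => (ModularForm.E₄ z) ^ 3) τ := by
    simp only [jFun_mul_delta]
  have h2 : D (fun z => jFun z * Δ z) τ = D jFun τ * Δ τ + jFun τ * D Δ τ := by
    rw [show (fun z => jFun z * Δ z) = jFun * Δ from rfl,
      normalizedDerivOfComplex_mul _ _ mdiff_jFun mdiff_delta]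
    rfl
  have h3 : D (fun z => (ModularForm.E₄ z) ^ 3) τ =
      3 * ModularForm.E₄ τ ^ 2 * D (ModularForm.E₄ : ℍ → ℂ) τ := by
    rw [show (fun z => (ModularForm.E₄ z) ^ 3) =
      (ModularForm.E₄ : ℍ → ℂ) * ((ModularForm.E₄ : ℍ → ℂ) * (ModularForm.E₄ : ℍ → ℂ)) from by
        funext z; simp [pow_three],
      normalizedDerivOfComplex_mul _ _ mdiff_E4 (mdiff_E4.mul mdiff_E4),
      normalizedDerivOfComplex_mul _ _ mdiff_E4 mdiff_E4]
    simp only [Pi.add_apply, Pi.mul_apply]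
    ring
  rw [h2, h3, D_discriminant] at h1
  linear_combination h1 + ModularForm.E₄ τ ^ 2 * three_D_E4 τ -
    EisensteinSeries.E2 τ * jFun_mul_delta τ

/-- `j` is not constant. -/
theorem jFun_ne_const (c : ℂ) : ∃ z : ℍ, jFun z ≠ c := by
  by_contra h
  push Not at h
  have h1 := hasExp_jFun.unique one_ne_zero ((HasExp.const 1 c).congr fun z => (h z).symm)
  have := congrArg (fun s : LaurentSeries ℂ => s.coeff (-1)) h1
  simp [ModularCurve.coeff_jqModC_neg_one] at this

/-- The order of `j - j(τ)` at `τ` is positive and divides `6`. -/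
theorem ordAt_jFun_sub (τ : ℍ) :
    ∃ k : ℕ, 0 < k ∧ k ∣ 6 ∧ ordAt τ (fun z => jFun z - jFun τ) = k := by
  set g : ℍ → ℂ := fun z => jFun z - jFun τ with hg
  have hgd : MDiff g := mdiff_jFun.sub mdifferentiable_const
  have hfin : ordAt τ g ≠ ⊤ := fun h => by
    obtain ⟨z, hz⟩ := jFun_ne_const (jFun τ)
    exact hz (sub_eq_zero.mp (eq_zero_of_ordAt_eq_top hgd h z))
  -- derivative
  have hderiv : analyticOrderAt (deriv (jFun ∘ UpperHalfPlane.ofComplex)) (τ : ℂ) + 1 =
      ordAt τ g := by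
    rw [(analyticAt_comp_ofComplex mdiff_jFun τ).analyticOrderAt_deriv_add_one, ordAt]
    refine congrArg (analyticOrderAt · (τ : ℂ)) ?_
    funext z
    simp [hg]
  have hDd : MDiff (D jFun) := normalizedDerivOfComplex_mdifferentiable mdiff_jFun
  have hD : analyticOrderAt (deriv (jFun ∘ UpperHalfPlane.ofComplex)) (τ : ℂ) =
      ordAt τ (D jFun) := by
    have h2 : deriv (jFun ∘ UpperHalfPlane.ofComplex) =ᶠ[𝓝 (τ : ℂ)]
        (fun _ => 2 * Real.pi * Complex.I) * (D jFun ∘ UpperHalfPlane.ofComplex) := by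
      filter_upwards [isOpen_upperHalfPlaneSet.mem_nhds τ.im_pos] with z hz
      simp only [Pi.mul_apply, Function.comp_apply, normalizedDerivOfComplex,
        ofComplex_apply_of_im_pos hz]
      rw [← mul_assoc, mul_inv_cancel₀ Complex.two_pi_I_ne_zero, one_mul]
    rw [analyticOrderAt_congr h2, analyticOrderAt_mul analyticAt_const
      (analyticAt_comp_ofComplex hDd τ),
      analyticAt_const.analyticOrderAt_eq_zero.mpr Complex.two_pi_I_ne_zero, zero_add, ordAt]
  have hΔ : ordAt τ (Δ : ℍ → ℂ) = 0 :=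
    (ordAt_eq_zero_iff mdiff_delta τ).mpr (ModularForm.discriminant_ne_zero τ)
  have hprod : ordAt τ (D jFun) = 2 * ordAt τ (ModularForm.E₄ : ℍ → ℂ) +
      ordAt τ (ModularForm.E₆ : ℍ → ℂ) := by
    have h : ordAt τ (D jFun * Δ) = ordAt τ (((fun _ => -1) * ((ModularForm.E₄ : ℍ → ℂ) *
        (ModularForm.E₄ : ℍ → ℂ))) * (ModularForm.E₆ : ℍ → ℂ)) :=
      ordAt_congr (fun z => by
        simp only [Pi.mul_apply]
        rw [D_jFun_mul_delta]
        ring) τ
    have hm1 : MDiff (fun _ : ℍ => (-1 : ℂ)) := mdifferentiable_const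
    rw [ordAt_mul hDd mdiff_delta, hΔ, add_zero,
      ordAt_mul (hm1.mul (mdiff_E4.mul mdiff_E4)) mdiff_E6, ordAt_mul hm1 (mdiff_E4.mul mdiff_E4),
      (ordAt_eq_zero_iff hm1 τ).mpr (neg_ne_zero.mpr one_ne_zero), zero_add,
      ordAt_mul mdiff_E4 mdiff_E4, ← two_mul] at h
    exact h
  rw [hD, hprod] at hderiv
  obtain ⟨k, hk⟩ := ENat.ne_top_iff_exists.mp hfin
  rw [← hk] at hderiv
  obtain ⟨a, ha⟩ := ENat.ne_top_iff_exists.mp
    (show ordAt τ (ModularForm.E₄ : ℍ → ℂ) ≠ ⊤ from fun h => by rw [h] at hderiv; simp at hderiv)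
  obtain ⟨b, hb⟩ := ENat.ne_top_iff_exists.mp
    (show ordAt τ (ModularForm.E₆ : ℍ → ℂ) ≠ ⊤ from fun h => by rw [h] at hderiv; simp at hderiv)
  rw [← ha, ← hb] at hderiv
  have hkab : 2 * a + b + 1 = k := by exact_mod_cast hderiv
  have hnot : ModularForm.E₄ τ ≠ 0 ∨ ModularForm.E₆ τ ≠ 0 := by
    by_contra h
    push Not at h
    apply ModularForm.discriminant_ne_zero τ
    rw [ModularForm.discriminant_eq_E₄_cube_sub_E₆_sq, h.1, h.2]
    simp
  refine ⟨k, by omega, ?_, hk.symm⟩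
  by_cases ha0 : a = 0
  · by_cases hb0 : b = 0
    · rw [show k = 1 by omega]; exact one_dvd _
    have h6 : ModularForm.E₆ τ = 0 := by
      by_contra h
      rw [(ordAt_eq_zero_iff mdiff_E6 τ).mpr h] at hb
      exact hb0 (by exact_mod_cast hb)
    have hj : jFun τ = 1728 := sub_eq_zero.mp ((mul_eq_zero.mp
      (by rw [jFun_sub_mul_delta, h6, zero_pow two_ne_zero])).resolve_right
        (ModularForm.discriminant_ne_zero τ))
    have h : ordAt τ (g * Δ) = ordAt τ ((ModularForm.E₆ : ℍ → ℂ) * (ModularForm.E₆ : ℍ → ℂ)) :=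
      ordAt_congr (fun z => by
        simp only [Pi.mul_apply, hg, hj]
        rw [jFun_sub_mul_delta, sq]) τ
    rw [ordAt_mul hgd mdiff_delta, hΔ, add_zero, ordAt_mul mdiff_E6 mdiff_E6, ← hk, ← hb] at h
    have : k = b + b := by exact_mod_cast h
    rw [show k = 2 by omega]
    norm_num
  · have h4 : ModularForm.E₄ τ = 0 := by
      by_contra h
      rw [(ordAt_eq_zero_iff mdiff_E4 τ).mpr h] at ha
      exact ha0 (by exact_mod_cast ha)
    have hb0 : b = 0 := by
      have h6 := hnot.resolve_left (fun h => h h4)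
      rw [(ordAt_eq_zero_iff mdiff_E6 τ).mpr h6] at hb
      exact_mod_cast hb
    have hj : jFun τ = 0 := (mul_eq_zero.mp
      (by rw [jFun_mul_delta, h4, zero_pow three_ne_zero])).resolve_right
        (ModularForm.discriminant_ne_zero τ)
    have h : ordAt τ (g * Δ) = ordAt τ ((ModularForm.E₄ : ℍ → ℂ) *
        ((ModularForm.E₄ : ℍ → ℂ) * (ModularForm.E₄ : ℍ → ℂ))) :=
      ordAt_congr (fun z => by
        simp only [Pi.mul_apply, hg, hj, sub_zero]
        rw [jFun_mul_delta, pow_three]) τ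
    rw [ordAt_mul hgd mdiff_delta, hΔ, add_zero, ordAt_mul mdiff_E4 (mdiff_E4.mul mdiff_E4),
      ordAt_mul mdiff_E4 mdiff_E4, ← hk, ← ha] at h
    have : k = a + (a + a) := by exact_mod_cast h
    rw [show k = 3 by omega]
    norm_num

end Fermat.Agent.KummerDivisor
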