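import Fermat.Agent.KummerDivisor.Fibre
import Fermat.Agent.KummerDivisor.JOrder
import Fermat.Agent.ModularAnalytic.WeakField
import Fermat.Agent.FFPlaces.Global
import Fermat.Agent.Hecke.Inputs

/-!
# Places of `X₀(N)` over `ℚ̄` and points of the upper half plane

For a weakly holomorphic function `f` on `Γ₀(N)` with algebraic coefficients: if `P` divides the
orders of all conjugates of `f` at all points of `ℍ` and at all cusps, it divides `6 N · ord_v f`
at every place `v` of the function field.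
-/

set_option autoImplicit false

noncomputable section

open UpperHalfPlane CongruenceSubgroup AlgebraicCurve ModularCurve Polynomial
open scoped MatrixGroups Manifold

namespace Fermat.Agent.KummerDivisor

local notation "Qbar" => AlgebraicClosure ℚ

variable (N : ℕ) [NeZero N] (ι : Qbar →+* ℂ)

local notation "A₀" => KummerES.weak (Gamma0 N) N (RingHom.range ι)
local notation "A₁" => KummerES.weak (Gamma N) N (RingHom.range ι)
local notation "𝔽" => modularFunctionFieldBar N

omit [NeZero N] in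
/-- `Γ(N)` is contained in `Γ₀(N)`. -/
theorem gamma_le_gamma0 : Gamma N ≤ Gamma0 N := fun γ hγ => by
  rw [Gamma0_mem]
  exact (Gamma_mem.mp hγ).2.2.1

/-- Inclusion of level `Γ₀(N)` in level `Γ(N)`. -/
def inclHom : A₀ →+* A₁ :=
  Subring.inclusion (KummerES.weak_mono (gamma_le_gamma0 N) le_rfl)

/-- Composition with an element of `SL(2,ℤ)`. -/
def compHom (g : SL(2, ℤ)) : A₁ →+* A₁ where
  toFun a := ⟨KummerES.comp a.1 g,
    have := Gamma_normal N
    KummerES.comp_mem_weak a.2 g⟩
  map_one' := rfl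
  map_zero' := rfl
  map_add' _ _ := rfl
  map_mul' _ _ := rfl

omit [NeZero N] in
theorem compHom_injective (g : SL(2, ℤ)) : Function.Injective (compHom N ι g) := fun a b h => by
  refine Subtype.ext (funext fun τ => ?_)
  have h1 := congrFun (congrArg Subtype.val h) (g⁻¹ • τ)
  change a.1 (g • g⁻¹ • τ) = b.1 (g • g⁻¹ • τ) at h1
  rwa [smul_inv_smul] at h1

/-- The conjugates of a `Γ₀(N)`-invariant function. -/
def conjHom (q : SL(2, ℤ) ⧸ Gamma0 N) : A₀ →+* A₁ :=
  (compHom N ι q.out⁻¹).comp (inclHom N ι)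

omit [NeZero N] in
/-- The conjugate attached to a coset, as a function. -/
theorem coe_conjHom (q : SL(2, ℤ) ⧸ Gamma0 N) (a : A₀) :
    (conjHom N ι q a : ℍ → ℂ) = KummerES.comp a.1 q.out⁻¹ := rfl

omit [NeZero N] in
/-- The conjugate of an invariant function depends only on the coset. -/
theorem comp_inv_eq {a : A₀} {δ δ' : SL(2, ℤ)} (h : δ⁻¹ * δ' ∈ Gamma0 N) :
    KummerES.comp a.1 δ'⁻¹ = KummerES.comp a.1 δ⁻¹ := by
  conv_rhs => rw [show δ⁻¹ = (δ⁻¹ * δ') * δ'⁻¹ by group, ← KummerES.comp_comp, a.2.2.1 _ h]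

omit [NeZero N] in
/-- `SL(2,ℤ)` permutes the conjugates. -/
theorem compHom_conjHom (g : SL(2, ℤ)) (q : SL(2, ℤ) ⧸ Gamma0 N) (a : A₀) :
    compHom N ι g (conjHom N ι q a) = conjHom N ι (g⁻¹ • q) a := by
  refine Subtype.ext ?_
  show KummerES.comp (KummerES.comp a.1 q.out⁻¹) g = KummerES.comp a.1 (g⁻¹ • q).out⁻¹
  rw [KummerES.comp_comp, show q.out⁻¹ * g = (g⁻¹ * q.out)⁻¹ by group]
  refine comp_inv_eq N ι ?_
  rw [← QuotientGroup.eq, QuotientGroup.out_eq']
  show g⁻¹ • q = g⁻¹ • (QuotientGroup.mk q.out : SL(2, ℤ) ⧸ Gamma0 N)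
  rw [QuotientGroup.out_eq']

omit [NeZero N] in
/-- The conjugate attached to the trivial coset is the inclusion. -/
theorem conjHom_base : conjHom N ι ((1 : SL(2, ℤ)) : SL(2, ℤ) ⧸ Gamma0 N) = inclHom N ι := by
  refine RingHom.ext fun a => Subtype.ext ?_
  show KummerES.comp a.1 _ = a.1
  rw [comp_inv_eq N ι (δ := 1)]
  · simp
  · rw [← QuotientGroup.eq, QuotientGroup.out_eq']

/-- The functions invariant under all of `SL(2,ℤ)`. -/
def invariants : Set A₀ := {c | ∀ g : SL(2, ℤ), KummerES.comp c.1 g = c.1}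

/-- Constant functions go to constants of the function field. -/
theorem toField_const (z : Qbar) :
    ModularAnalytic.toField N N ι ⟨fun _ => ι z, KummerES.const_mem_weak ⟨z, rfl⟩⟩
      = algebraMap Qbar 𝔽 z := by
  refine Subtype.ext (ModularAnalytic.toField_eq N N ι
    ((ModularFunctionField.HasExp.const N (ι z)).congr_series ?_))
  show _ = qExpand ℂ N (coeffMap ι (algebraMap Qbar (LaurentSeries Qbar) z))
  rw [algebraMap_laurentSeries_eq_single, coeffMap_single, qExpand_single, mul_zero,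
    HahnSeries.C_apply]

/-- The conjugate data of `X₀(N)`. -/
def conjData [Fintype (SL(2, ℤ) ⧸ Gamma0 N)] :
    ConjugateData Qbar 𝔽 A₀ A₁ (SL(2, ℤ) ⧸ Gamma0 N) where
  e := ModularAnalytic.toField N N ι
  e_injective := ModularAnalytic.toField_injective N N ι
  exists_div x := by
    obtain ⟨a, b, hb, hx⟩ := ModularAnalytic.exists_eq_div N N ι dvd_rfl x
    exact ⟨a, b, fun h => hb (by rw [h, map_zero]), hx⟩
  incl := inclHom N ι
  conj := conjHom N ι
  conj_injective q := (compHom_injective N ι _).comp (Subring.inclusion_injective _)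
  base := ((1 : SL(2, ℤ)) : SL(2, ℤ) ⧸ Gamma0 N)
  conj_base := conjHom_base N ι
  Inv := invariants N ι
  conj_inv c hc q := Subtype.ext (hc q.out⁻¹)
  coeff_mem a b k := by
    set Q : A₁[X] := ∏ q, (C (conjHom N ι q b) * X - C (conjHom N ι q a)) with hQ
    have hinv : ∀ g, Q.map (compHom N ι g) = Q := by
      intro g
      rw [hQ, Polynomial.map_prod]
      simp only [Polynomial.map_sub, Polynomial.map_mul, Polynomial.map_C, Polynomial.map_X,
        compHom_conjHom]
      exact Fintype.prod_equiv (MulAction.toPerm g⁻¹) _ _ fun q => rfl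
    have hcoeff : ∀ g, KummerES.comp (Q.coeff k).1 g = (Q.coeff k).1 := fun g => by
      conv_rhs => rw [← hinv g, Polynomial.coeff_map]
      rfl
    exact ⟨⟨(Q.coeff k).1, ⟨(Q.coeff k).2.1, fun γ _ => hcoeff γ, (Q.coeff k).2.2.2⟩⟩,
      hcoeff, Subtype.ext rfl⟩
  const_mem z := ⟨_, fun _ => rfl, toField_const N ι z⟩

theorem jN_one_apply (τ : ℍ) : ModularAnalytic.jN 1 τ = ModularFunctionField.jFun τ := by
  rw [ModularAnalytic.jN]
  congr 1
  refine UpperHalfPlane.ext ?_
  rw [ModularFunctionField.Tri.coe_map, ModularAnalytic.top_a, ModularAnalytic.top_b,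
    ModularAnalytic.top_d]
  simp

/-- `j` as a function of level `N`. -/
def jW : A₀ := ⟨ModularAnalytic.jN 1, ModularAnalytic.jN_mem_weak N N ι (one_dvd N) (one_dvd N)⟩

/-- The expansion of `j` in the function field. -/
theorem coe_toField_jW :
    ((ModularAnalytic.toField N N ι (jW N ι) : 𝔽) : LaurentSeries Qbar) = jqModC Qbar := by
  rw [jW, ModularAnalytic.toField_jN N N ι (one_dvd N) (one_dvd N), qExpand_one_apply]

/-- `j` is invariant under `SL(2,ℤ)`. -/
theorem jW_mem : jW N ι ∈ invariants N ι := fun g => funext fun τ => by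
  show ModularAnalytic.jN 1 (g • τ) = ModularAnalytic.jN 1 τ
  rw [jN_one_apply, jN_one_apply, ModularFunctionField.jFun_invariant]

/-- An `SL(2,ℤ)`-invariant function is a polynomial in `j`, on `ℍ`, in the function field and in the
expansion at `i∞`. -/
theorem invariant_eq_polynomial {c : A₀} (hc : c ∈ invariants N ι) :
    ∃ P : Qbar[X], (∀ τ, c.1 τ = (P.map ι).eval (ModularFunctionField.jFun τ)) ∧
      ModularAnalytic.toField N N ι c = aeval (ModularAnalytic.toField N N ι (jW N ι)) P ∧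
      KummerES.expansion N c.1
        = (P.map ι).eval₂ HahnSeries.C (ModularFunctionField.jT ℂ N) := by
  set x : LaurentSeries Qbar := (ModularAnalytic.toField N N ι c : LaurentSeries Qbar) with hx
  have hs : ModularFunctionField.HasExp N c.1 (coeffMap ι (qExpand Qbar N x)) := by
    rw [ModularFunctionField.coeffMap_qExpand', ModularAnalytic.qExpand_coeffMap_toField]
    have h := KummerES.hasExp_expansion c.2 1
    rw [KummerES.comp_one] at h
    exact ModularAnalytic.hasExp_of_kummer h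
  obtain ⟨P, hP, hPτ⟩ := ModularFunctionField.exists_polynomial_of_invariant ι ι.injective
    (fun g τ => congrFun (hc g) τ) c.2.1 hs
  refine ⟨P, hPτ, Subtype.ext (qExpand_injective N ?_), ?_⟩
  · rw [← hx, hP, ← IntermediateField.coe_val, ← aeval_algHom_apply,
      IntermediateField.coe_val, coe_toField_jW, aeval_def, Polynomial.hom_eval₂,
      ModularFunctionField.jT]
    congr 1
    refine RingHom.ext fun z => ?_
    show HahnSeries.C z = qExpand Qbar N (algebraMap Qbar (LaurentSeries Qbar) z)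
    rw [algebraMap_laurentSeries_eq_single, qExpand_single, mul_zero, HahnSeries.C_apply]
  · rw [← ModularAnalytic.qExpand_coeffMap_toField N N ι c, ← hx,
      ← ModularFunctionField.coeffMap_qExpand', hP,
      Polynomial.hom_eval₂, ModularFunctionField.coeffMap_jT, Polynomial.eval₂_map]
    congr 1
    refine RingHom.ext fun z => ?_
    show coeffMap ι (HahnSeries.C z) = HahnSeries.C (ι z)
    rw [HahnSeries.C_apply, coeffMap_single, HahnSeries.C_apply]

/-- The order at a point, as a valuation. -/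
def pointVal (τ₀ : ℍ) : AddValuation A₁ (WithTop ℤ) :=
  AddValuation.of (fun a => ENat.map (Nat.cast : ℕ → ℤ) (ordAt τ₀ a.1))
    (by
      have h : ordAt τ₀ (0 : ℍ → ℂ) = ⊤ := by
        rw [ordAt, analyticOrderAt_eq_top]
        exact Filter.Eventually.of_forall fun z => rfl
      show ENat.map _ (ordAt τ₀ (0 : ℍ → ℂ)) = ⊤
      rw [h]; rfl)
    (by
      have h : ordAt τ₀ (1 : ℍ → ℂ) = 0 :=
        (ordAt_eq_zero_iff mdifferentiable_const τ₀).mpr one_ne_zero
      show ENat.map _ (ordAt τ₀ (1 : ℍ → ℂ)) = 0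
      rw [h]; rfl)
    (fun a b => by
      show min (ENat.map _ _) (ENat.map _ _) ≤ ENat.map _ (ordAt τ₀ (a.1 + b.1))
      have hmono : Monotone (ENat.map (Nat.cast : ℕ → ℤ)) :=
        ENat.monotone_map_iff.mpr Nat.mono_cast
      rw [← hmono.map_min]
      exact hmono (le_analyticOrderAt_add (f := a.1 ∘ UpperHalfPlane.ofComplex)
        (g := b.1 ∘ UpperHalfPlane.ofComplex)))
    (fun a b => by
      show ENat.map _ (ordAt τ₀ (a.1 * b.1)) = _
      rw [ordAt_mul a.2.1 b.2.1]
      exact ENat.map_add (Nat.castAddMonoidHom ℤ) _ _)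

omit [NeZero N] in
/-- `pointVal` is the order at the point. -/
theorem pointVal_apply (τ₀ : ℍ) (a : A₁) :
    pointVal N ι τ₀ a = ENat.map (Nat.cast : ℕ → ℤ) (ordAt τ₀ a.1) := rfl

omit [NeZero N] in
/-- Only zero has infinite order at a point. -/
theorem pointVal_eq_top {τ₀ : ℍ} {a : A₁} (h : pointVal N ι τ₀ a = ⊤) : a = 0 := by
  rw [pointVal_apply, ENat.map_eq_top_iff] at h
  exact Subtype.ext (funext fun z => eq_zero_of_ordAt_eq_top a.2.1 h z)

/-- The order at `i∞`, as a valuation. -/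
def cuspVal : AddValuation A₁ (WithTop ℤ) :=
  AddValuation.comap (KummerES.expAt (Gamma N) N ι.range 1) (HahnSeries.addVal ℤ ℂ)

/-- `cuspVal` is the order of the expansion at `i∞`. -/
theorem cuspVal_apply (a : A₁) : cuspVal N ι a = (KummerES.expansion N a.1).orderTop := by
  show HahnSeries.addVal ℤ ℂ (KummerES.expAt (Gamma N) N ι.range 1 a) = _
  rw [HahnSeries.addVal_apply, KummerES.expAt_apply, KummerES.comp_one]

/-- Only zero has infinite order at `i∞`. -/
theorem cuspVal_eq_top {a : A₁} (h : cuspVal N ι a = ⊤) : a = 0 := by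
  rw [cuspVal_apply, HahnSeries.orderTop_eq_top] at h
  refine KummerES.expAt_injective 1 ?_
  rw [map_zero, KummerES.expAt_apply, KummerES.comp_one, h]

/-- The order at `i∞` of a polynomial in `j`. -/
theorem orderTop_eval₂_jT {P : ℂ[X]} (hP : P ≠ 0) :
    (P.eval₂ HahnSeries.C (ModularFunctionField.jT ℂ N)).orderTop
      = ((-((N * P.natDegree : ℕ) : ℤ) : ℤ) : WithTop ℤ) := by
  refine le_antisymm (HahnSeries.orderTop_le_of_coeff_ne_zero ?_) ?_
  · rw [eval₂_eq_sum_range, HahnSeries.coeff_sum, Finset.sum_range_succ, Finset.sum_eq_zero]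
    · rw [zero_add, HahnSeries.C_mul_eq_smul, HahnSeries.coeff_smul,
        ModularFunctionField.coeff_jT_pow_self, smul_eq_mul, mul_one]
      exact leadingCoeff_ne_zero.mpr hP
    · intro i hi
      rw [HahnSeries.C_mul_eq_smul, HahnSeries.coeff_smul, ModularFunctionField.coeff_jT_pow_of_lt,
        smul_zero]
      have := Nat.mul_lt_mul_of_pos_left (Finset.mem_range.mp hi) (Nat.pos_of_ne_zero (NeZero.ne N))
      omega
  · rw [HahnSeries.le_orderTop_iff_forall]
    intro i hi
    rw [WithTop.coe_lt_coe] at hi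
    rw [eval₂_eq_sum_range, HahnSeries.coeff_sum]
    refine Finset.sum_eq_zero fun m hm => ?_
    rw [HahnSeries.C_mul_eq_smul, HahnSeries.coeff_smul, ModularFunctionField.coeff_jT_pow_of_lt,
      smul_zero]
    have := Nat.mul_le_mul_left N (Nat.lt_succ_iff.mp (Finset.mem_range.mp hm))
    omega

section place

variable {F : Type*} [Field F] [Algebra Qbar F] (v : Place Qbar F) {J : F}

/-- The order of a polynomial in `J` at a pole of `J`. -/
theorem ord_aeval_of_neg (hJ : v.ord J < 0) {P : Qbar[X]} (hP : P ≠ 0) :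
    aeval J P ≠ 0 ∧ v.ord (aeval J P) = P.natDegree * v.ord J := by
  have hJ0 : J ≠ 0 := fun h => by simp [h] at hJ
  induction hn : P.natDegree generalizing P with
  | zero =>
    obtain ⟨c, rfl⟩ := natDegree_eq_zero.mp hn
    rw [aeval_C, FFPlaces.ord_algebraMap, Nat.cast_zero, zero_mul]
    exact ⟨(_root_.map_ne_zero _).mpr (fun h => hP (by rw [h, map_zero])), rfl⟩
  | succ n ih =>
    have hdiv : P.divX.natDegree = n := by rw [natDegree_divX_eq_natDegree_tsub_one, hn]; rfl
    have hdiv0 : P.divX ≠ 0 := fun h => by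
      have := congrArg natDegree (divX_mul_X_add P)
      rw [h, zero_mul, zero_add, natDegree_C, hn] at this
      omega
    obtain ⟨h1, h2⟩ := ih hdiv0 hdiv
    have h3 : v.ord (aeval J P.divX * J) = (n + 1 : ℕ) * v.ord J := by
      rw [v.ord_mul h1 hJ0, h2]; push_cast; ring
    have hlt : v.ord (aeval J P.divX * J) < 0 := by
      rw [h3]; exact mul_neg_of_pos_of_neg (by omega) hJ
    have key : aeval J P = aeval J P.divX * J + algebraMap Qbar F (P.coeff 0) := by
      conv_lhs => rw [← divX_mul_X_add P, map_add, map_mul, aeval_X, aeval_C]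
    have h4 := FFPlaces.ord_add_eq_of_lt v (g := algebraMap Qbar F (P.coeff 0))
      (mul_ne_zero h1 hJ0) (Or.inr (by rw [FFPlaces.ord_algebraMap]; exact hlt))
    rw [← key] at h4
    exact ⟨fun h => by rw [h, v.ord_zero, h3] at h4; rw [h3] at hlt; omega, h4.trans h3⟩

/-- The order of a polynomial in `J` at a zero of `J - c₀`. -/
theorem ord_aeval_of_pos {c₀ : Qbar} (hJ : 0 < v.ord (J - algebraMap Qbar F c₀))
    {P : Qbar[X]} (hP : P ≠ 0) :
    v.ord (aeval J P) = P.rootMultiplicity c₀ * v.ord (J - algebraMap Qbar F c₀) := by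
  obtain ⟨Q, hPQ, hQ⟩ := P.exists_eq_pow_rootMultiplicity_mul_and_not_dvd hP c₀
  have hd0 : J - algebraMap Qbar F c₀ ≠ 0 := fun h => by simp [h] at hJ
  have hmem : J ∈ v.toValuationSubring := by
    rw [← sub_add_cancel J (algebraMap Qbar F c₀)]
    exact add_mem ((FFPlaces.mem_iff v).mpr hJ.le) (v.algebraMap_mem' c₀)
  have hQ0 : Q.eval c₀ ≠ 0 := fun h => hQ (dvd_iff_isRoot.mpr h)
  obtain ⟨R, hR⟩ : (X - C c₀) ∣ Q - C (Q.eval c₀) := dvd_iff_isRoot.mpr (by simp)
  have hRJ : aeval J R ∈ v.toValuationSubring := by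
    rw [aeval_eq_sum_range]
    exact sum_mem fun i _ => by
      rw [Algebra.smul_def]; exact mul_mem (v.algebraMap_mem' _) (pow_mem hmem i)
  have hQJ : aeval J Q =
      algebraMap Qbar F (Q.eval c₀) + (J - algebraMap Qbar F c₀) * aeval J R := by
    have := congrArg (aeval J) hR
    simp only [map_sub, map_mul, aeval_X, aeval_C] at this
    rw [← this]; ring
  have hordQ : aeval J Q ≠ 0 ∧ v.ord (aeval J Q) = 0 := by
    have h := FFPlaces.ord_add_eq_of_lt v (f := algebraMap Qbar F (Q.eval c₀))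
      (g := (J - algebraMap Qbar F c₀) * aeval J R) ((_root_.map_ne_zero _).mpr hQ0) (by
        rcases eq_or_ne (aeval J R) 0 with h | h
        · exact Or.inl (by rw [h, mul_zero])
        · refine Or.inr ?_
          rw [v.ord_mul hd0 h, FFPlaces.ord_algebraMap]
          have := (FFPlaces.mem_iff v).mp hRJ
          omega)
    rw [← hQJ, FFPlaces.ord_algebraMap] at h
    refine ⟨fun h0 => ?_, h⟩
    have h1 := hQJ ▸ h0
    rw [add_eq_zero_iff_eq_neg] at h1
    rcases eq_or_ne (aeval J R) 0 with h2 | h2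
    · rw [h2, mul_zero, neg_zero] at h1
      exact hQ0 ((map_eq_zero _).mp h1)
    · have h3 := congrArg v.ord h1
      rw [FFPlaces.ord_algebraMap, FFPlaces.ord_neg, v.ord_mul hd0 h2] at h3
      have := (FFPlaces.mem_iff v).mp hRJ
      omega
  conv_lhs => rw [hPQ]
  rw [map_mul, map_pow, map_sub, aeval_X, aeval_C, v.ord_mul (pow_ne_zero _ hd0) hordQ.1,
    FFPlaces.ord_pow, hordQ.2, add_zero]

end place

/-- At a place where `j` is finite some conjugate of a function has, at some point of `ℍ`, a fixed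
multiple of the order at the place. -/
theorem exists_point_of_ord_nonneg (v : Place Qbar 𝔽)
    (hJ : 0 ≤ v.ord (ModularAnalytic.toField N N ι (jW N ι))) :
    ∃ (c₀ : Qbar) (τ₀ : ℍ) (δ : SL(2, ℤ)) (k m : ℕ),
      0 < v.ord (ModularAnalytic.toField N N ι (jW N ι) - algebraMap Qbar 𝔽 c₀) ∧
      ModularFunctionField.jFun τ₀ = ι c₀ ∧
      ordAt τ₀ (fun z => ModularFunctionField.jFun z - ModularFunctionField.jFun τ₀) = k ∧
      (k : ℤ) = v.ord (ModularAnalytic.toField N N ι (jW N ι) - algebraMap Qbar 𝔽 c₀) * m ∧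
      ∀ f : A₀, f ≠ 0 → ∃ n : ℕ, ordAt τ₀ (KummerES.comp f.1 δ) = n ∧
        (n : ℤ) = v.ord (ModularAnalytic.toField N N ι f) * m := by
  classical
  let _ : Fintype (SL(2, ℤ) ⧸ Gamma0 N) := Fintype.ofFinite _
  set D := conjData N ι with hD
  set e := ModularAnalytic.toField N N ι with he
  set J := e (jW N ι) with hJdef
  obtain ⟨c₀, hc₀⟩ := FFPlaces.exists_residue
    (fun x hx => FunctionField.IsFunctionField.finiteDimensional_adjoin x hx) v hJ
  have hc₀' : 0 < v.ord (J - algebraMap Qbar 𝔽 c₀) := by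
    refine hc₀.resolve_left fun h => ?_
    have h1 := congrArg (fun x : 𝔽 => ((x : LaurentSeries Qbar)).coeff (-1)) h
    simp only [hJdef, he, coe_toField_jW, ModularCurve.coeff_jqModC_neg_one] at h1
    rw [show ((algebraMap Qbar 𝔽 c₀ : 𝔽) : LaurentSeries Qbar)
      = algebraMap Qbar (LaurentSeries Qbar) c₀ from rfl,
      algebraMap_laurentSeries_eq_single, HahnSeries.coeff_single_of_ne (by norm_num)] at h1
    exact one_ne_zero h1
  obtain ⟨τ₀, hτ₀⟩ := ModularFunctionField.exists_jFun_eq (ι c₀)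
  obtain ⟨k, hk0, -, hk⟩ := ordAt_jFun_sub τ₀
  have hval : ∀ c ∈ invariants N ι, c ≠ 0 → ∃ Q : Qbar[X], Q ≠ 0 ∧ e c = aeval J Q ∧
      pointVal N ι τ₀ (inclHom N ι c) = ((Q.rootMultiplicity c₀ * k : ℕ) : ℤ) := by
    intro c hc hc0
    obtain ⟨Q, hQτ, hQF, -⟩ := invariant_eq_polynomial N ι hc
    have hQ0 : Q ≠ 0 := fun h => hc0 (Subtype.ext (funext fun τ => by
      rw [hQτ τ, h]; simp))
    refine ⟨Q, hQ0, hQF, ?_⟩
    obtain ⟨R, hQR, hR⟩ := Q.exists_eq_pow_rootMultiplicity_mul_and_not_dvd hQ0 c₀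
    rw [pointVal_apply]
    set m := Q.rootMultiplicity c₀
    have hfun : ordAt τ₀ (inclHom N ι c).1 = ordAt τ₀
        ((fun τ => ModularFunctionField.jFun τ - ModularFunctionField.jFun τ₀) ^ m
          * fun τ => (R.map ι).eval (ModularFunctionField.jFun τ)) := ordAt_congr (fun τ => by
      show c.1 τ = _
      rw [hQτ τ, hQR, hτ₀]
      simp) τ₀
    have hd : MDiff fun τ => ModularFunctionField.jFun τ - ModularFunctionField.jFun τ₀ :=
      ModularFunctionField.mdiff_jFun.sub mdifferentiable_const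
    have hRd : MDiff fun τ => (R.map ι).eval (ModularFunctionField.jFun τ) := by
      induction R.map ι using Polynomial.induction_on' with
      | add p q hp hq => simp only [Polynomial.eval_add]; exact hp.add hq
      | monomial i a =>
        simp only [Polynomial.eval_monomial]
        exact mdifferentiable_const.mul (ModularFunctionField.mdiff_jFun.pow i)
    have hR0 : ordAt τ₀ (fun τ => (R.map ι).eval (ModularFunctionField.jFun τ)) = 0 := by
      rw [ordAt_eq_zero_iff hRd, hτ₀, Polynomial.eval_map, Polynomial.eval₂_at_apply]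
      exact (_root_.map_ne_zero _).mpr fun h => hR (dvd_iff_isRoot.mpr h)
    rw [hfun, ordAt_mul (hd.pow m) hRd, hR0, add_zero, ordAt_pow hd, hk, nsmul_eq_mul,
      ← Nat.cast_mul]
    rfl
  set t : A₀ := jW N ι - ⟨fun _ => ι c₀, KummerES.const_mem_weak ⟨c₀, rfl⟩⟩ with ht
  have htI : t ∈ invariants N ι := fun g => funext fun τ => by
    show (jW N ι).1 (g • τ) - ι c₀ = (jW N ι).1 τ - ι c₀
    exact congrArg (fun x => x - ι c₀) (congrFun (jW_mem N ι g) τ)
  have hte : e t = J - algebraMap Qbar 𝔽 c₀ := by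
    rw [ht, map_sub, hJdef, he, toField_const]
  have htval : pointVal N ι τ₀ (inclHom N ι t) = ((k : ℤ) : WithTop ℤ) := by
    rw [pointVal_apply]
    have : ordAt τ₀ (inclHom N ι t).1 = (k : ℕ∞) := by
      rw [← hk]
      refine ordAt_congr (fun τ => ?_) τ₀
      show ModularAnalytic.jN 1 τ - ι c₀ = _
      rw [jN_one_apply, hτ₀]
    rw [this]; rfl
  obtain ⟨q, m, -, hconj, hm⟩ := D.exists_conj_eq_ord_mul (pointVal N ι τ₀)
    (fun a => pointVal_eq_top N ι) (fun c _ z _ => by
      show 0 ≤ pointVal N ι τ₀ (inclHom N ι c)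
      rw [pointVal_apply]
      exact ENat.map_natCast_nonneg)
    (t := t) htI (by show pointVal N ι τ₀ (inclHom N ι t) ≠ ⊤; rw [htval]; exact WithTop.coe_ne_top)
    (by
      show pointVal N ι τ₀ (inclHom N ι t) ≠ 0
      rw [htval]; exact fun h => by
        have := WithTop.coe_eq_zero.mp h
        omega)
    v (fun c hc c' hc' hc0 hc0' hle => by
      obtain ⟨Q, hQ0, hQF, hQV⟩ := hval c hc hc0
      obtain ⟨Q', hQ0', hQF', hQV'⟩ := hval c' hc' hc0'
      change pointVal N ι τ₀ (inclHom N ι c') ≤ pointVal N ι τ₀ (inclHom N ι c) at hle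
      rw [hQV, hQV', WithTop.coe_le_coe, Int.ofNat_le] at hle
      have hle' := Nat.le_of_mul_le_mul_right hle hk0
      show v.ord (e c') ≤ v.ord (e c)
      rw [hQF, hQF', ord_aeval_of_pos v hc₀' hQ0, ord_aeval_of_pos v hc₀' hQ0']
      exact mul_le_mul_of_nonneg_right (by exact_mod_cast hle') hc₀'.le)
  refine ⟨c₀, τ₀, q.out⁻¹, k, m, hc₀', hτ₀, hk, ?_, fun f hf => ?_⟩
  · rw [← hte]
    exact WithTop.coe_injective (htval.symm.trans hm)
  have hf' := hconj f hf
  change pointVal N ι τ₀ (conjHom N ι q f) = ((v.ord (e f) * m : ℤ) : WithTop ℤ) at hf'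
  rw [pointVal_apply, coe_conjHom] at hf'
  cases hn : ordAt τ₀ (KummerES.comp f.1 q.out⁻¹) using ENat.recTopCoe with
  | top => rw [hn] at hf'; exact absurd hf'.symm WithTop.coe_ne_top
  | coe n =>
    rw [hn] at hf'
    exact ⟨n, rfl, WithTop.coe_injective hf'⟩

/-- The main divisibility. -/
theorem dvd_mul_ord {P : ℕ} (f : A₀) (hf : f ≠ 0)
    (hpt : ∀ (δ : SL(2, ℤ)) (τ : ℍ) (n : ℕ), ordAt τ (KummerES.comp f.1 δ) = n → P ∣ n)
    (hcusp : ∀ δ : SL(2, ℤ), (P : ℤ) ∣ (KummerES.expansion N (KummerES.comp f.1 δ)).order)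
    (v : Place Qbar 𝔽) :
    (P : ℤ) ∣ (6 * N : ℕ) * v.ord (ModularAnalytic.toField N N ι f) := by
  classical
  let _ : Fintype (SL(2, ℤ) ⧸ Gamma0 N) := Fintype.ofFinite _
  set D := conjData N ι with hD
  set e := ModularAnalytic.toField N N ι with he
  set J := e (jW N ι) with hJdef
  rcases le_or_gt 0 (v.ord J) with hJ | hJ
  · -- points
    obtain ⟨c₀, τ₀, δ, k, m, -, -, hk, hkm, hconj⟩ := exists_point_of_ord_nonneg N ι v hJ
    obtain ⟨k', -, hk6, hk'⟩ := ordAt_jFun_sub τ₀
    obtain rfl : k = k' := by exact_mod_cast hk.symm.trans hk'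
    obtain ⟨n, hn, hn'⟩ := hconj f hf
    obtain ⟨u, hu⟩ := hpt δ τ₀ n hn
    obtain ⟨w, hw⟩ := hk6
    set a := v.ord (J - algebraMap Qbar 𝔽 c₀)
    refine ⟨N * w * a * u, ?_⟩
    have h6 : (6 : ℤ) = k * w := by exact_mod_cast hw
    have hu' : (n : ℤ) = P * u := by exact_mod_cast hu
    push_cast
    rw [h6, hkm]
    linear_combination (N : ℤ) * w * a * (hu' - hn')
  · -- cusps
    have hconstZ : ∀ c ∈ invariants N ι, ∀ z : Qbar, e c = algebraMap Qbar 𝔽 z →
        c.1 = fun _ => ι z := by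
      intro c _ z hz
      rw [← toField_const N ι z] at hz
      exact congrArg Subtype.val (ModularAnalytic.toField_injective N N ι hz)
    have hval : ∀ c ∈ invariants N ι, c ≠ 0 → ∃ Q : Qbar[X], Q ≠ 0 ∧ e c = aeval J Q ∧
        cuspVal N ι (inclHom N ι c) = ((-((N * Q.natDegree : ℕ) : ℤ) : ℤ) : WithTop ℤ) := by
      intro c hc hc0
      obtain ⟨Q, hQτ, hQF, hQE⟩ := invariant_eq_polynomial N ι hc
      have hQ0 : Q ≠ 0 := fun h => hc0 (Subtype.ext (funext fun τ => by
        rw [hQτ τ, h]; simp))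
      refine ⟨Q, hQ0, hQF, ?_⟩
      rw [cuspVal_apply]
      show (KummerES.expansion N c.1).orderTop = _
      rw [hQE, orderTop_eval₂_jT N ((Polynomial.map_ne_zero_iff ι.injective).mpr hQ0),
        Polynomial.natDegree_map]
    have hJ0 : jW N ι ≠ 0 := fun h => by
      have : J = 0 := by rw [hJdef, h, map_zero]
      simp [this] at hJ
    obtain ⟨Q, -, hQF, hQV⟩ := hval _ (jW_mem N ι) hJ0
    have hdeg : Q.natDegree = 1 := by
      rcases eq_or_ne Q 0 with h | h
      · rw [h, map_zero] at hQF; rw [hJdef, hQF, v.ord_zero] at hJ; omega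
      obtain ⟨-, h2⟩ := ord_aeval_of_neg v hJ h
      rw [← hQF, ← hJdef] at h2
      have : ((Q.natDegree : ℤ) - 1) * v.ord J = 0 := by rw [sub_mul, ← h2, one_mul, sub_self]
      rcases mul_eq_zero.mp this with h3 | h3 <;> omega
    rw [hdeg, mul_one] at hQV
    obtain ⟨q, m, -, hconj, hm⟩ := D.exists_conj_eq_ord_mul (cuspVal N ι)
      (fun a => cuspVal_eq_top N ι) (fun c hc z hz => by
        show 0 ≤ cuspVal N ι (inclHom N ι c)
        rw [cuspVal_apply]
        show 0 ≤ (KummerES.expansion N c.1).orderTop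
        rw [hconstZ c hc z hz, (KummerES.HasExp.const (L := N) (ι z)).expansion_eq]
        exact HahnSeries.orderTop_single_le)
      (t := jW N ι) (jW_mem N ι)
      (by show cuspVal N ι (inclHom N ι _) ≠ ⊤; rw [hQV]; exact WithTop.coe_ne_top)
      (by
        show cuspVal N ι (inclHom N ι _) ≠ 0
        rw [hQV]; exact fun h => by
          have := WithTop.coe_eq_zero.mp h
          have := NeZero.ne N
          omega)
      v (fun c hc c' hc' hc0 hc0' hle => by
        obtain ⟨R, hR0, hRF, hRV⟩ := hval c hc hc0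
        obtain ⟨R', hR0', hRF', hRV'⟩ := hval c' hc' hc0'
        change cuspVal N ι (inclHom N ι c') ≤ cuspVal N ι (inclHom N ι c) at hle
        rw [hRV, hRV', WithTop.coe_le_coe, neg_le_neg_iff, Int.ofNat_le] at hle
        have hle' := Nat.le_of_mul_le_mul_left hle (Nat.pos_of_ne_zero (NeZero.ne N))
        show v.ord (e c') ≤ v.ord (e c)
        rw [hRF, hRF', (ord_aeval_of_neg v hJ hR0).2, (ord_aeval_of_neg v hJ hR0').2]
        exact mul_le_mul_of_nonpos_right (by exact_mod_cast hle') hJ.le)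
    have hNm : -(N : ℤ) = v.ord J * m := WithTop.coe_injective (hQV.symm.trans hm)
    have hf' := hconj f hf
    change cuspVal N ι (conjHom N ι q f) = ((v.ord (e f) * m : ℤ) : WithTop ℤ) at hf'
    rw [cuspVal_apply, coe_conjHom] at hf'
    obtain ⟨u, hu⟩ := hcusp q.out⁻¹
    have hne : KummerES.expansion N (KummerES.comp f.1 q.out⁻¹) ≠ 0 := fun h => by
      rw [h, HahnSeries.orderTop_zero] at hf'
      exact WithTop.coe_ne_top hf'.symm
    rw [← HahnSeries.order_eq_orderTop_of_ne_zero hne, hu] at hf'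
    have hf'' : (P : ℤ) * u = v.ord (e f) * m := WithTop.coe_injective hf'
    refine ⟨-(6 * u * v.ord J), ?_⟩
    push_cast
    linear_combination (-6 * v.ord (e f)) * hNm + (6 * v.ord J) * hf''

end Fermat.Agent.KummerDivisor
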