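import Fermat.Agent.KummerDivisor.ModularFibre
import Fermat.Agent.KummerES.RootMultiplier
import Fermat.Agent.KummerES.LocalSeries
import Fermat.Agent.FunctionField.PrincipalDivisors
import Fermat.Prelude.Def_ModularCurve_PeriodMap

/-!
# Divisor classes of Kummer roots

A parabolic character `χ : Γ₀(N) → ℤ/P` with a root `g` whose power `f = g ^ P` has algebraic
coefficients gives the class of `(6 N / P) div f` in `J₀(N)`. It depends only on `χ`, is additive,
commutes with Galois conjugation of the coefficients of `f`, and vanishes only if `6 N χ = 0`.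
-/

set_option autoImplicit false

noncomputable section

open UpperHalfPlane CongruenceSubgroup AlgebraicCurve ModularCurve Polynomial
open ModularCurve.Period (IsParabolicHom parabolicHoms)
open scoped MatrixGroups Manifold

namespace Fermat.Agent.KummerDivisor

local notation "Qbar" => AlgebraicClosure ℚ

variable (N : ℕ) [NeZero N] (ι : Qbar →+* ℂ)

local notation "A₀" => KummerES.weak (Gamma0 N) N (RingHom.range ι)
local notation "𝔽" => modularFunctionFieldBar N

/-- A `P`-th root of a series with algebraic coefficients has algebraic coefficients. -/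
theorem mem_coeffSubring_of_pow {P : ℕ} [NeZero P] {S : LaurentSeries ℂ}
    (h : S ^ P ∈ KummerES.coeffSubring ι.range) : S ∈ KummerES.coeffSubring ι.range := by
  rcases eq_or_ne S 0 with rfl | hS
  · exact zero_mem _
  obtain ⟨s, hs⟩ := ModularAnalytic.exists_coeffMap_eq (ι := ι) (s := S ^ P) h
  have hs0 : s ≠ 0 := by
    rintro rfl
    exact pow_ne_zero P hS (by rw [← hs, map_zero])
  have hord : s.order = P * S.order := by
    rw [← KummerES.order_coeffMap ι, hs, HahnSeries.order_pow, nsmul_eq_mul]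
  set c := s.coeff s.order with hc
  have hc0 : c ≠ 0 := HahnSeries.coeff_order_eq_zero.not.mpr hs0
  obtain ⟨z, hz⟩ := IsAlgClosed.exists_pow_nat_eq c (Nat.pos_of_ne_zero (NeZero.ne P))
  obtain ⟨w, hw, -⟩ := KummerES.exists_pow_eq_of_constantCoeff_one P
    (Ne.isUnit (Nat.cast_ne_zero.mpr (NeZero.ne P) : (P : Qbar) ≠ 0))
    (PowerSeries.C c⁻¹ * LaurentSeries.powerSeriesPart s) (by
      rw [map_mul, PowerSeries.constantCoeff_C, ← PowerSeries.coeff_zero_eq_constantCoeff_apply,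
        LaurentSeries.powerSeriesPart_coeff, Nat.cast_zero, add_zero, ← hc, inv_mul_cancel₀ hc0])
  set T := HahnSeries.single S.order z * HahnSeries.ofPowerSeries ℤ Qbar w with hT
  have hTP : T ^ P = s := by
    rw [hT, mul_pow, HahnSeries.single_pow, ← map_pow, hw, map_mul, HahnSeries.ofPowerSeries_C,
      HahnSeries.C_apply, ← mul_assoc, HahnSeries.single_mul_single, add_zero, hz,
      mul_inv_cancel₀ hc0, nsmul_eq_mul, ← hord]
    exact LaurentSeries.single_order_mul_powerSeriesPart s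
  have hT0 : coeffMap ι T ≠ 0 := by
    refine (_root_.map_ne_zero _).mpr fun h0 => hs0 ?_
    rw [← hTP, h0, zero_pow (NeZero.ne P)]
  obtain ⟨ζ, hζ⟩ := HasEnoughRootsOfUnity.exists_primitiveRoot Qbar P
  obtain ⟨i, -, hi⟩ := (hζ.map_of_injective
    (f := (coeffMap ι).comp (HahnSeries.C : Qbar →+* LaurentSeries Qbar))
    (RingHom.injective _)).eq_pow_of_pow_eq_one
    (ξ := S / coeffMap ι T) (by
      rw [div_pow, ← map_pow, hTP, hs, div_self (pow_ne_zero P hS)])
  rw [← map_pow, eq_div_iff hT0] at hi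
  rw [← hi, RingHom.comp_apply, ← map_mul]
  exact fun j => ⟨_, (coeffMap_coeff ι _ j).symm⟩

omit [NeZero N] in
/-- Weak functions of `Γ₀(N)` are weak functions of `Γ(N)`. -/
theorem weak_gamma0_le : (A₀ : Set (ℍ → ℂ)) ⊆ KummerES.weak (Gamma N) N ⊤ :=
  fun _ h => KummerES.weak_mono (gamma_le_gamma0 N) le_top h

/-- A `Γ₀(N)`-invariant root of a function with algebraic coefficients has algebraic
coefficients. -/
theorem root_mem {P : ℕ} [NeZero P] {u : ℍ → ℂ} (hu : MDiff u)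
    (hinv : ∀ γ ∈ Gamma0 N, KummerES.comp u γ = u) (hpow : u ^ P ∈ A₀) : u ∈ A₀ := by
  have h := KummerES.root_mem_weak (NeZero.ne P) (gamma_le_gamma0 N) hu hinv
    (weak_gamma0_le N ι hpow)
  refine ⟨hu, hinv, fun δ => ?_⟩
  obtain ⟨S, -, hS⟩ := h.2.2 δ
  refine ⟨S, mem_coeffSubring_of_pow ι (P := P) ?_, hS⟩
  have h2 : KummerES.HasExp N (KummerES.comp (u ^ P) δ) (S ^ P) := hS.pow P
  rw [← h2.expansion_eq]
  exact KummerES.expansion_mem hpow δ

variable {N} {P : ℕ} [NeZero P]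

/-- `g` is a root of `χ` with algebraic power `f`. -/
structure IsAlgRoot (χ : Additive (Gamma0 N) →+ ZMod P) (g : ℍ → ℂ) : Prop where
  ne_zero : g ≠ 0
  holo : MDiff g
  comp_eq : ∀ γ : Gamma0 N, KummerES.comp g γ =
    fun τ => KummerES.rootPow P (χ (Additive.ofMul γ)) * g τ
  pow_mem : g ^ P ∈ A₀

variable {ι} {χ χ' : Additive (Gamma0 N) →+ ZMod P} {g g' : ℍ → ℂ}

omit [NeZero N] in
/-- The product of roots is a root of the sum of the characters. -/
theorem IsAlgRoot.mul (h : IsAlgRoot ι χ g) (h' : IsAlgRoot ι χ' g') :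
    IsAlgRoot ι (χ + χ') (g * g') := by
  refine ⟨fun h0 => ?_, h.holo.mul h'.holo, fun γ => funext fun τ => ?_, ?_⟩
  · have := (UpperHalfPlane.prod_eq_zero_iff (s := (Finset.univ : Finset (Fin 2)))
      (f := ![g, g']) (fun i _ => by fin_cases i; exacts [h.holo, h'.holo])).mp
      (by rw [Fin.prod_univ_two]; exact h0)
    obtain ⟨i, -, hi⟩ := this
    fin_cases i
    · exact h.ne_zero hi
    · exact h'.ne_zero hi
  · show g (_ • τ) * g' (_ • τ) = _
    rw [show g ((γ : SL(2, ℤ)) • τ) = _ from congrFun (h.comp_eq γ) τ,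
      show g' ((γ : SL(2, ℤ)) • τ) = _ from congrFun (h'.comp_eq γ) τ,
      AddMonoidHom.add_apply, KummerES.rootPow_add]
    simp only [Pi.mul_apply]
    ring
  · rw [mul_pow]
    exact mul_mem h.pow_mem h'.pow_mem

omit [NeZero N] in
/-- The `n`-th power of a root. -/
theorem IsAlgRoot.pow (h : IsAlgRoot ι χ g) (n : ℕ) : IsAlgRoot ι (n • χ) (g ^ n) := by
  refine ⟨fun h0 => h.ne_zero (funext fun τ => ?_), ?_, fun γ => funext fun τ => ?_, ?_⟩
  · rcases Nat.eq_zero_or_pos n with rfl | hn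
    · exact absurd (congrFun h0 UpperHalfPlane.I) (by simp)
    · exact eq_zero_of_pow_eq_zero (congrFun h0 τ)
  · induction n with
    | zero => rw [pow_zero]; exact mdifferentiable_const
    | succ n ih => rw [pow_succ]; exact ih.mul h.holo
  · show g (_ • τ) ^ n = _
    rw [show g ((γ : SL(2, ℤ)) • τ) = _ from congrFun (h.comp_eq γ) τ, AddMonoidHom.nsmul_apply,
      nsmul_eq_mul, KummerES.rootPow_natCast_mul, mul_pow]
    rfl
  · rw [← pow_mul, mul_comm, pow_mul]
    exact _root_.pow_mem h.pow_mem n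

/-- The element of the function field attached to a root. -/
def IsAlgRoot.fn (h : IsAlgRoot ι χ g) : 𝔽 :=
  ModularAnalytic.toField N N ι ⟨g ^ P, h.pow_mem⟩

omit [NeZero N] in
/-- The power `g ^ P` of a root is not zero. -/
theorem IsAlgRoot.power_ne_zero (h : IsAlgRoot ι χ g) : (⟨g ^ P, h.pow_mem⟩ : A₀) ≠ 0 :=
  fun h0 => h.ne_zero (funext fun τ =>
    eq_zero_of_pow_eq_zero (congrFun (congrArg Subtype.val h0) τ))

/-- The function attached to a root is not zero. -/
theorem IsAlgRoot.fn_ne_zero (h : IsAlgRoot ι χ g) : h.fn ≠ 0 :=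
  (map_ne_zero_iff _ (ModularAnalytic.toField_injective N N ι)).mpr h.power_ne_zero

/-- The function attached to a product of roots is the product. -/
theorem IsAlgRoot.fn_mul (h : IsAlgRoot ι χ g) (h' : IsAlgRoot ι χ' g') :
    (h.mul h').fn = h.fn * h'.fn := by
  rw [IsAlgRoot.fn, IsAlgRoot.fn, IsAlgRoot.fn, ← map_mul]
  exact congrArg _ (Subtype.ext (mul_pow g g' P))

/-- The function attached to a power of a root is the power. -/
theorem IsAlgRoot.fn_pow (h : IsAlgRoot ι χ g) (n : ℕ) : (h.pow n).fn = h.fn ^ n := by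
  rw [IsAlgRoot.fn, IsAlgRoot.fn, ← map_pow]
  exact congrArg _ (Subtype.ext (by
    show (g ^ n) ^ P = (g ^ P) ^ n
    rw [← pow_mul, ← pow_mul, mul_comm]))

omit [NeZero N] in
theorem IsAlgRoot.comp_eq_self (h : IsAlgRoot ι χ g) {γ : Gamma0 N}
    (hγ : χ (Additive.ofMul γ) = 0) : KummerES.comp g γ = g := by
  rw [h.comp_eq γ, hγ]
  simp

omit [NeZero N] in
/-- `P` divides the orders of the conjugates of the power of a root at the points of `ℍ`. -/
theorem IsAlgRoot.dvd_ordAt (h : IsAlgRoot ι χ g) (δ : SL(2, ℤ)) (τ : ℍ) (n : ℕ)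
    (hn : ordAt τ (KummerES.comp (g ^ P) δ) = n) : P ∣ n := by
  rw [show KummerES.comp (g ^ P) δ = KummerES.comp g δ ^ P from rfl,
    ordAt_pow (KummerES.mdiff_comp h.holo δ), nsmul_eq_mul] at hn
  cases hm : ordAt τ (KummerES.comp g δ) using ENat.recTopCoe with
  | top =>
    rw [hm, ENat.mul_top (by exact_mod_cast NeZero.ne P)] at hn
    exact absurd hn (ENat.top_ne_natCast n)
  | coe m =>
    rw [hm] at hn
    exact ⟨m, by exact_mod_cast hn.symm⟩

omit [NeZero N] in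
/-- A root which is a quotient of invariant functions up to a `P`-th root of unity has trivial
character. -/
theorem IsAlgRoot.eq_zero_of_mul_pow_eq (h : IsAlgRoot ι χ g) {a b : A₀} (hb : b ≠ 0)
    (hv : (g * b.1) ^ P = a.1 ^ P) : χ = 0 := by
  obtain ⟨y, hy⟩ := KummerES.eq_rootPow_mul_of_pow_eq a.2.1 (h.holo.mul b.2.1) hv
  have hne : g * b.1 ≠ 0 := fun h0 =>
    ((UpperHalfPlane.prod_eq_zero_iff
      (s := (Finset.univ : Finset (Fin 2))) (f := ![g, b.1])
      (fun i _ => by fin_cases i; exacts [h.holo, b.2.1])).mp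
      (by rw [Fin.prod_univ_two]; exact h0)).elim fun i hi => by
        fin_cases i
        · exact h.ne_zero hi.2
        · exact hb (Subtype.ext hi.2)
  refine KummerES.multiplier_unique hne (χ := χ) (ψ := 0) (fun γ => funext fun τ => ?_)
    fun γ => funext fun τ => ?_
  · show g (_ • τ) * b.1 (_ • τ) = _
    rw [show g ((γ : SL(2, ℤ)) • τ) = _ from congrFun (h.comp_eq γ) τ,
      show b.1 ((γ : SL(2, ℤ)) • τ) = b.1 τ from congrFun (b.2.2.1 γ γ.2) τ]
    simp only [Pi.mul_apply]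
    ring
  · rw [AddMonoidHom.zero_apply, KummerES.rootPow_zero, one_mul, KummerES.comp_apply,
      congrFun hy, congrFun hy]
    rw [show a.1 ((γ : SL(2, ℤ)) • τ) = a.1 τ from congrFun (a.2.2.1 γ γ.2) τ]

/-- `P` divides `6 N` times the order of `f` at every place. -/
theorem IsAlgRoot.dvd_ord (h : IsAlgRoot ι χ g) (hχ : IsParabolicHom (Gamma0 N) χ)
    (v : Place Qbar 𝔽) : (P : ℤ) ∣ (6 * N : ℕ) * v.ord h.fn := by
  refine dvd_mul_ord N ι ⟨g ^ P, h.pow_mem⟩ h.power_ne_zero h.dvd_ordAt (fun δ => ?_) v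
  have hmem : δ * ModularGroup.T ^ (N : ℤ) * δ⁻¹ ∈ Gamma0 N :=
    gamma_le_gamma0 N (KummerES.T_zpow_conj_mem_Gamma N δ)
  obtain ⟨j, hj, -⟩ := KummerES.exists_order_multiplier h.holo h.ne_zero
    (weak_gamma0_le N ι h.pow_mem) δ (h.comp_eq_self (γ := ⟨_, hmem⟩) (hχ ⟨_, hmem⟩ (by
      show (Matrix.trace _) ^ 2 = 4
      rw [show (((⟨_, hmem⟩ : Gamma0 N) : SL(2, ℤ)) : Matrix (Fin 2) (Fin 2) ℤ).trace = 2
        from KummerES.trace_conj_T_zpow δ N]
      norm_num)))
  exact ⟨j, hj⟩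

/-- Two roots of one character have powers differing by a `P`-th power. -/
theorem IsAlgRoot.exists_fn_eq_mul_pow {g₁ g₂ : ℍ → ℂ} (h₁ : IsAlgRoot ι χ g₁)
    (h₂ : IsAlgRoot ι χ g₂) : ∃ y : 𝔽, y ≠ 0 ∧ h₁.fn = h₂.fn * y ^ P := by
  -- `g₁ g₂ ^ (P - 1)` is invariant
  have hP : P - 1 + 1 = P := Nat.sub_add_cancel (Nat.one_le_iff_ne_zero.mpr (NeZero.ne P))
  have hK := h₁.mul (h₂.pow (P - 1))
  have hz : χ + (P - 1) • χ = 0 := by
    rw [add_comm, ← succ_nsmul, hP]
    ext γ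
    simp [nsmul_eq_mul]
  set y := ModularAnalytic.toField N N ι ⟨_, root_mem N ι hK.holo
    (fun γ hγ => hK.comp_eq_self (γ := ⟨γ, hγ⟩) (by rw [hz]; rfl)) hK.pow_mem⟩ with hydef
  have hy : y ^ P = h₁.fn * h₂.fn ^ (P - 1) := by
    rw [← h₂.fn_pow, ← h₁.fn_mul, IsAlgRoot.fn, hydef, ← map_pow]
    rfl
  have hy0 : y ≠ 0 := by
    intro h0
    rw [h0, zero_pow (NeZero.ne P), eq_comm] at hy
    exact mul_ne_zero h₁.fn_ne_zero (pow_ne_zero _ h₂.fn_ne_zero) hy
  refine ⟨y / h₂.fn, div_ne_zero hy0 h₂.fn_ne_zero, ?_⟩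
  rw [div_pow, hy, ← mul_div_assoc, eq_div_iff (pow_ne_zero P h₂.fn_ne_zero),
    show h₂.fn ^ P = h₂.fn ^ (P - 1) * h₂.fn by rw [← pow_succ, hP]]
  ring

/-- `x` is the class of `(6 N / P) div f` for some root of `χ`. -/
def IsKummerClass (ι : Qbar →+* ℂ) (χ : Additive (Gamma0 N) →+ ZMod P) (x : JZero N) : Prop :=
  ∃ (g : ℍ → ℂ) (h : IsAlgRoot ι χ g)
    (D : Divisor.degZero (K := Qbar) (F := modularFunctionFieldBar N)),
    x = Pic0.mk D ∧ ∀ v, (P : ℤ) * D.1 v = ((6 * N : ℕ) : ℤ) * v.ord h.fn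

/-- The divisor `(6 N / P) div f`. -/
theorem IsAlgRoot.exists_divisor (h : IsAlgRoot ι χ g) (hχ : IsParabolicHom (Gamma0 N) χ) :
    ∃ D : Divisor.degZero (K := Qbar) (F := modularFunctionFieldBar N),
      ∀ v, (P : ℤ) * D.1 v = ((6 * N : ℕ) : ℤ) * v.ord h.fn := by
  set D : Divisor Qbar 𝔽 :=
    Finsupp.mapRange (fun z : ℤ => (6 * N : ℕ) * z / P) (by simp)
      (FunctionField.divFun Qbar h.fn) with hD
  have hDv : ∀ v, (P : ℤ) * D v = ((6 * N : ℕ) : ℤ) * v.ord h.fn := fun v => by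
    rw [hD, Finsupp.mapRange_apply, FunctionField.divFun_apply,
      Int.mul_ediv_cancel' (h.dvd_ord hχ v)]
  have heq : (P : ℤ) • D = ((6 * N : ℕ) : ℤ) • FunctionField.divFun Qbar h.fn :=
    Finsupp.ext fun v => by
      rw [Finsupp.smul_apply, Finsupp.smul_apply, smul_eq_mul, smul_eq_mul, hDv,
        FunctionField.divFun_apply]
  have hdeg : D ∈ Divisor.degZero (K := Qbar) (F := 𝔽) := by
    rw [Divisor.mem_degZero]
    have h1 := congrArg (Divisor.degree (K := Qbar) (F := 𝔽)) heq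
    rw [map_zsmul, map_zsmul, FunctionField.degree_divFun, smul_zero] at h1
    exact (smul_eq_zero.mp h1).resolve_left (by exact_mod_cast NeZero.ne P)
  exact ⟨⟨D, hdeg⟩, hDv⟩

/-- Every parabolic character with a root has a class. -/
theorem exists_isKummerClass (h : IsAlgRoot ι χ g) (hχ : IsParabolicHom (Gamma0 N) χ) :
    ∃ x, IsKummerClass ι χ x :=
  let ⟨D, hD⟩ := h.exists_divisor hχ
  ⟨_, g, h, D, rfl, hD⟩

/-- The class depends only on the character. -/
theorem IsKummerClass.unique {x x' : JZero N} (hx : IsKummerClass ι χ x)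
    (hx' : IsKummerClass ι χ x') : x = x' := by
  obtain ⟨g₁, h₁, D, rfl, hD⟩ := hx
  obtain ⟨g₂, h₂, D', rfl, hD'⟩ := hx'
  obtain ⟨y, hy0, hy⟩ := h₁.exists_fn_eq_mul_pow h₂
  refine QuotientAddGroup.eq_iff_sub_mem.mpr ?_
  rw [AddSubgroup.mem_addSubgroupOf]
  refine ⟨y ^ (6 * N), pow_ne_zero _ hy0, fun v => ?_⟩
  show (D.1 - D'.1) v = _
  rw [Finsupp.sub_apply, FFPlaces.ord_pow]
  refine mul_left_cancel₀ (show (P : ℤ) ≠ 0 by exact_mod_cast NeZero.ne P) ?_
  rw [mul_sub, hD v, hD' v, hy, v.ord_mul h₂.fn_ne_zero (pow_ne_zero _ hy0), FFPlaces.ord_pow]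
  ring

/-- The class is additive in the character. -/
theorem IsKummerClass.add {x x' : JZero N} (hx : IsKummerClass ι χ x)
    (hx' : IsKummerClass ι χ' x') : IsKummerClass ι (χ + χ') (x + x') := by
  obtain ⟨g₁, h₁, D, rfl, hD⟩ := hx
  obtain ⟨g₂, h₂, D', rfl, hD'⟩ := hx'
  refine ⟨_, h₁.mul h₂, D + D', rfl, fun v => ?_⟩
  rw [h₁.fn_mul h₂, v.ord_mul h₁.fn_ne_zero h₂.fn_ne_zero, AddSubgroup.coe_add, Finsupp.add_apply,
    mul_add, hD v, hD' v, mul_add]

/-- An element with all orders zero is a constant. -/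
theorem exists_eq_algebraMap {F : Type*} [Field F] [Algebra Qbar F]
    [FunctionField.IsFunctionField Qbar F] {x : F} (hx : ∀ v : Place Qbar F, v.ord x = 0) :
    ∃ c : Qbar, x = algebraMap Qbar F c := by
  by_cases h : Transcendental Qbar x
  · obtain ⟨v, hv⟩ := FunctionField.exists_place_ord_pos h
    rw [hx v] at hv
    omega
  · rw [Transcendental, not_not] at h
    have hint : IsIntegral Qbar x := h.isIntegral
    have hdeg := IsAlgClosed.degree_eq_one_of_irreducible Qbar (minpoly.irreducible hint)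
    obtain ⟨c, hc⟩ := minpoly.degree_eq_one_iff.mp hdeg
    exact ⟨c, hc.symm⟩

/-- If the class is trivial then `6 N χ = 0`. -/
theorem IsKummerClass.nsmul_eq_zero (hx : IsKummerClass ι χ 0) :
    (6 * N) • χ = 0 := by
  obtain ⟨g₁, h₁, D, hD0, hD⟩ := hx
  obtain ⟨h, hh0, hh⟩ : Divisor.IsPrincipal (K := Qbar) (F := 𝔽) D.1 :=
    AddSubgroup.mem_addSubgroupOf.mp ((QuotientAddGroup.eq_zero_iff D).mp hD0.symm)
  obtain ⟨c, hc⟩ := exists_eq_algebraMap (x := h₁.fn ^ (6 * N) / h ^ P) fun v => by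
    rw [FFPlaces.ord_div v (pow_ne_zero _ h₁.fn_ne_zero) (pow_ne_zero _ hh0), FFPlaces.ord_pow,
      FFPlaces.ord_pow, ← hD v, hh v, sub_self]
  have hc0 : c ≠ 0 := by
    intro h0
    rw [h0, map_zero] at hc
    exact div_ne_zero (pow_ne_zero _ h₁.fn_ne_zero) (pow_ne_zero _ hh0) hc
  obtain ⟨a, b, hb, hab⟩ := ModularAnalytic.exists_eq_div N N ι dvd_rfl h
  have ha : ModularAnalytic.toField N N ι a ≠ 0 := fun h0 => hh0 (by rw [hab, h0, zero_div])
  obtain ⟨z, hz⟩ := IsAlgClosed.exists_pow_nat_eq c (Nat.pos_of_ne_zero (NeZero.ne P))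
  set cW : A₀ := ⟨fun _ => ι z, KummerES.const_mem_weak ⟨z, rfl⟩⟩
  have hfun : (⟨g₁ ^ P, h₁.pow_mem⟩ : A₀) ^ (6 * N) * b ^ P = (cW * a) ^ P := by
    refine ModularAnalytic.toField_injective N N ι ?_
    rw [map_mul, map_pow, map_pow, map_pow, map_mul, toField_const N ι z, mul_pow,
      ← map_pow (algebraMap Qbar 𝔽), hz, ← hc, hab]
    show h₁.fn ^ (6 * N) * _ = _
    rw [div_pow, div_div_eq_mul_div, div_mul_cancel₀ _ (pow_ne_zero P ha)]
  have hv : ((g₁ ^ (6 * N)) * b.1) ^ P = (cW * a : A₀).1 ^ P := by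
    have h1 := congrArg Subtype.val hfun
    simp only [MulMemClass.coe_mul, SubmonoidClass.coe_pow] at h1 ⊢
    rw [← h1, mul_pow, ← pow_mul, ← pow_mul, mul_comm P]
  exact (h₁.pow (6 * N)).eq_zero_of_mul_pow_eq
    (fun h0 => hb (by rw [h0, map_zero])) hv

/-- Conjugating the coefficients of the power of a root conjugates the class. -/
theorem IsKummerClass.smul {x : JZero N} {σ : Qbar ≃ₐ[ℚ] Qbar} {h₁ : IsAlgRoot ι χ g}
    {h₂ : IsAlgRoot ι χ' g'}
    (hconj : (h₂.fn : LaurentSeries Qbar) = coeffMap (σ : Qbar →+* Qbar) h₁.fn)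
    (hx : IsKummerClass ι χ x) (hχ : IsParabolicHom (Gamma0 N) χ) :
    IsKummerClass ι χ' (σ • x) := by
  obtain ⟨D, hD⟩ := h₁.exists_divisor hχ
  obtain rfl : x = Pic0.mk D := hx.unique ⟨g, h₁, D, rfl, hD⟩
  set G := arithmeticGalois (modularFunctionFieldFull N) σ
  refine ⟨g', h₂, SemilinearAut.degZeroSMulHom G D, ?_, fun v => ?_⟩
  · rw [galois_smul_pic0_def, SemilinearAut.pic0_smul_mk]
  · have hf : (G • h₁.fn : 𝔽) = h₂.fn :=
      Subtype.ext ((coe_arithmeticGalois_smul _ σ h₁.fn).trans hconj.symm)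
    rw [SemilinearAut.coe_degZeroSMulHom, SemilinearAut.divisor_smul_apply, hD, ← hf]
    have h := SemilinearAut.ord_smul G (G⁻¹ • v) h₁.fn
    rw [smul_inv_smul] at h
    rw [h]

end Fermat.Agent.KummerDivisor
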