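import Fermat.Agent.KummerDivisor.Maps
import Fermat.Agent.KummerES.ConjugateField
import Fermat.Agent.HeckeDatum.Reduction

/-!
# Flatness at `p` of Hecke-Galois data

From the Galois modules on parabolic characters of a conjugation level and the finite flat models
of the `p`-power torsion of `J₀(N)`.
-/

set_option autoImplicit false

noncomputable section

open CongruenceSubgroup
open scoped MatrixGroups

namespace Fermat.Agent.KummerDivisor

local notation "Gal" => AlgebraicClosure ℚ ≃ₐ[ℚ] AlgebraicClosure ℚ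

variable {p : ℕ} {N : ℕ} [NeZero N] {S : Finset ℕ}
  {𝒪 : Type} [CommRing 𝒪] [IsDomain 𝒪] [IsDiscreteValuationRing 𝒪]
  [IsAdicComplete (IsLocalRing.maximalIdeal 𝒪) 𝒪]
  {θ : CuspForm.heckeAlgebra N 2 (↑S : Set ℕ) →+* IsLocalRing.ResidueField 𝒪}
  {T : Type} [CommRing T] [IsLocalRing T] [IsNoetherianRing T]
  [IsAdicComplete (IsLocalRing.maximalIdeal T) T] [Algebra 𝒪 T] [IsLocalHom (algebraMap 𝒪 T)]
  [Module.Finite 𝒪 T] [Module.Free 𝒪 T]

/-- The algebraic-root hypothesis holds for modules read at a conjugation level. -/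
theorem hasAlgebraicRoots [NeZero p] {L : ℕ} [NeZero L]
    (C : KummerES.ConjLevel (Gamma0 N) N L) (G : KummerES.Gamma0Modules N p)
    (hG : ∀ (k : ℕ) (σ : Gal), G.rep k σ = C.galRep σ) :
    HasAlgebraicRoots G complexEmbedding.toRingHom := by
  refine hasAlgebraicRoots_of_conjLevel C G hG fun k χ => ?_
  obtain ⟨E, -, -, h⟩ := C.exists_numberField_roots (n := p ^ k)
  obtain ⟨g, hg, hgE⟩ := h χ
  refine ⟨g, hg, KummerES.weak_mono le_rfl ?_ hgE⟩
  rintro _ ⟨x, -, rfl⟩
  exact ⟨x, rfl⟩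

/-- Flatness at `p` from modules with algebraic roots and flat models of the torsion of `J₀(N)`. -/
theorem isFlatAt_of_algebraicRoots [Finite (IsLocalRing.ResidueField 𝒪)] [NeZero p]
    (hp : p.Prime) (hp𝒪 : (p : 𝒪) ∈ IsLocalRing.maximalIdeal 𝒪)
    (hNS : ∀ q : ℕ, q.Prime → q ∣ N → q ∈ S)
    (H : CuspForm.HeckeGaloisRepDatum N (↑S : Set ℕ) 𝒪 θ T)
    (G : KummerES.Gamma0Modules N p) {ι : AlgebraicClosure ℚ →+* ℂ} (hG : HasAlgebraicRoots G ι)
    (hflat : FlatModels.JacobianHasFlatModels N p) : H.ρ.IsFlatAt p :=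
  FlatModels.isFlatAt_of_heckeModules HeckeDatum.frobeniusPowDense hp hp𝒪 hNS H
    (hasFlatHeckeModules_of_divisorMaps (fun q hq hd => by simpa using hNS q hq hd) hp G
      (d := 6 * N) (Nat.mul_ne_zero (by norm_num) (NeZero.ne N)) (hasDivisorMaps G hG) hflat)

end Fermat.Agent.KummerDivisor
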