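import Fermat.Agent.FlatModels.JacobianInput
import Fermat.Agent.HeckeDatum.Operators
import Fermat.Agent.KummerES.Interface

/-!
# Hecke modules from Galois modules on parabolic characters

The multiples `d χ` of the parabolic characters `Γ₀(N) → ℤ/p^k` killed by all Hecke relations are
modules over the Hecke algebra and Galois, faithful up to a bounded power of `p`.  If the
characters map equivariantly to `J₀(N)` with kernel killed by `d`, they have finite flat models,
so they give `HasFlatHeckeModules`.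
-/

set_option autoImplicit false

noncomputable section

namespace Fermat.Agent.KummerDivisor

open CongruenceSubgroup ModularCurve ModularCurve.Period
open FlatModels HeckeLattice
open HeckeDatum (ParChar parTransfer coe_lift_parTransfer)
open scoped MatrixGroups

local notation "Gal" => AlgebraicClosure ℚ ≃ₐ[ℚ] AlgebraicClosure ℚ

variable {N : ℕ} [NeZero N] {p : ℕ}

/-- Equivariant maps from parabolic characters to the Jacobian with kernels killed by `d`. -/
def HasDivisorMaps (G : KummerES.Gamma0Modules N p) (d : ℕ) : Prop :=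
  ∀ k : ℕ, ∃ Φ : ParChar N (p ^ k) →+ JZero N,
    (∀ (σ : Gal) (x : ParChar N (p ^ k)), Φ (G.rep k σ x) = σ • Φ x) ∧
    ∀ x, Φ x = 0 → d • x = 0

theorem isAddTorsionFree_end (V : Type*) [AddCommGroup V] [Module ℂ V] :
    IsAddTorsionFree (Module.End ℂ V) :=
  ⟨fun n hn a b h => LinearMap.ext fun f => by
    have h2 : n • a f = n • b f := LinearMap.congr_fun h f
    rw [← Nat.cast_smul_eq_nsmul ℂ, ← Nat.cast_smul_eq_nsmul ℂ] at h2
    exact smul_right_injective V (Nat.cast_ne_zero.mpr hn : (n : ℂ) ≠ 0) h2⟩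

/-- The Hecke algebra is torsion free. -/
theorem isAddTorsionFree_heckeAlgebra (N : ℕ) [NeZero N] (S : Set ℕ) :
    IsAddTorsionFree (CuspForm.heckeAlgebra N 2 S) :=
  have := isAddTorsionFree_end (CuspForm (Gamma0 N) 2)
  Function.Injective.isAddTorsionFree
    (CuspForm.heckeAlgebra N 2 S).val.toAddMonoidHom Subtype.val_injective

/-- A finite algebra over a subring of `ℚ` has finitely many points in `ℚ̄`. -/
theorem finite_points (H : Type*) [CommRing H] [Algebra (GaloisRep.ratLocalizedAt p) H]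
    [Module.Finite (GaloisRep.ratLocalizedAt p) H] :
    Finite (WithConv (H →ₐ[GaloisRep.ratLocalizedAt p] AlgebraicClosure ℚ)) := by
  classical
  obtain ⟨s, hs⟩ := Algebra.FiniteType.out (R := GaloisRep.ratLocalizedAt p) (A := H)
  choose f hf hf0 using fun h : H => Algebra.IsIntegral.isIntegral
    (R := GaloisRep.ratLocalizedAt p) h
  let roots : s → Finset (AlgebraicClosure ℚ) := fun h =>
    ((f h).map (algebraMap (GaloisRep.ratLocalizedAt p) (AlgebraicClosure ℚ))).roots.toFinset
  let ev : WithConv (H →ₐ[GaloisRep.ratLocalizedAt p] AlgebraicClosure ℚ) → ∀ h : s, roots h :=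
    fun φ h => ⟨φ h, by
      rw [Multiset.mem_toFinset, Polynomial.mem_roots ((hf h).map _).ne_zero,
        Polynomial.IsRoot.def, Polynomial.eval_map]
      have h0 : Polynomial.aeval (h : H) (f h) = 0 := hf0 h
      have := congrArg φ.ofConv h0
      rwa [← Polynomial.aeval_algHom_apply, map_zero, Polynomial.aeval_def] at this⟩
  refine Finite.of_injective ev fun φ ψ hφψ => ?_
  have : φ.ofConv = ψ.ofConv := AlgHom.ext_of_adjoin_eq_top hs fun h hh =>
    congrArg Subtype.val (congrFun hφψ ⟨h, hh⟩)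
  exact WithConv.ofConv_injective this

variable {S : Set ℕ} (hNS : ∀ q : ℕ, q.Prime → q ∣ N → q ∈ S)

/-- Characters killed by all Hecke relations. -/
def relChars (n : ℕ) : Submodule ℤ (ParChar N n) :=
  ⨅ P : {P : FreeHecke S // evalFree hNS P = 0},
    LinearMap.ker (FreeAlgebra.lift ℤ (parTransfer hNS n) P.1)

lemma mem_relChars {n : ℕ} {χ : ParChar N n} :
    χ ∈ relChars hNS n ↔
      ∀ P : FreeHecke S, evalFree hNS P = 0 → FreeAlgebra.lift ℤ (parTransfer hNS n) P χ = 0 := by
  simp [relChars, Subtype.forall]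

/-- Faithfulness modulo powers of `p` of the characters killed by all Hecke relations. -/
theorem exists_forall_dvd_of_relChars (hp : p ≠ 0) (j : ℕ) :
    ∃ k : ℕ, ∀ P : FreeHecke S,
      (∀ χ ∈ relChars hNS (p ^ k), FreeAlgebra.lift ℤ (parTransfer hNS (p ^ k)) P χ = 0) →
      ∃ u : CuspForm.heckeAlgebra N 2 S,
        evalFree hNS P = (p : CuspForm.heckeAlgebra N 2 S) ^ j * u := by
  obtain ⟨c, hc⟩ := (Ideal.span {(p : ℤ)}).exists_pow_inf_eq_pow_smul
    (LinearMap.range (latticeAct hNS))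
  refine ⟨j + c, fun P hP => ?_⟩
  set n : ℕ := p ^ (j + c) with hn
  have : NeZero n := ⟨pow_ne_zero _ hp⟩
  set t := evalFree hNS P
  -- the lattice as a quotient of the group
  let π : Additive (Gamma0 N) →+ periodLattice N :=
    ((periodDual N).toIntLinearMap.rangeRestrict.toAddMonoidHom).comp (parHom N)
  have hπ : ∀ Q γ, (π (γ) : Module.Dual ℂ (CuspForm (Gamma0 N) 2)) = periodDual N (parHom N γ) ∧
      latticeAct hNS (evalFree hNS Q) (π γ) =
        (periodDual N).toIntLinearMap.rangeRestrict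
          (transferAct hNS (ParGroup N) Q (parHom N) γ) := fun Q γ =>
    ⟨rfl, Subtype.ext (by rw [latticeAct_apply]; exact dualMap_periodDual hNS Q γ)⟩
  have hpar : ∀ (ψ : periodLattice N →+ ZMod n), IsParabolicHom (Gamma0 N) (ψ.comp π) := by
    intro ψ δ hδ
    refine (congrArg (fun a => ψ ((periodDual N).toIntLinearMap.rangeRestrict a))
      (parHom_isParabolicHom N δ hδ)).trans ?_
    rw [map_zero]
    exact map_zero ψ
  have htr : ∀ (ψ : periodLattice N →+ ZMod n) Q γ,
      transferAct hNS (ZMod n) Q (ψ.comp π) γ = ψ (latticeAct hNS (evalFree hNS Q) (π γ)) := by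
    intro ψ Q γ
    have h := DFunLike.congr_fun (comp_transferAct hNS
      (ψ.comp (periodDual N).toIntLinearMap.rangeRestrict.toAddMonoidHom) Q (parHom N)) γ
    rw [(hπ Q γ).2]
    exact h.symm
  have hdivL : ∀ v : periodLattice N, ∃ w : periodLattice N,
      (n : ℤ) • w = latticeAct hNS t v := by
    intro v
    obtain ⟨γ, hγ⟩ : ∃ γ, π γ = v := by
      obtain ⟨_, a, rfl⟩ := v
      obtain ⟨γ, rfl⟩ := parHom_surjective N a
      exact ⟨γ, rfl⟩
    simp only [natCast_zsmul]
    refine exists_nsmul_eq_of_forall_zmod_hom fun ψ => ?_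
    have hmem : (⟨ψ.comp π, hpar ψ⟩ : ParChar N n) ∈ relChars hNS n := by
      rw [mem_relChars]
      intro Q hQ
      refine Subtype.ext (AddMonoidHom.ext fun δ => ?_)
      rw [coe_lift_parTransfer, htr, hQ, map_zero]
      simp
    have := congrArg Subtype.val (hP _ hmem)
    rw [coe_lift_parTransfer] at this
    have h2 := DFunLike.congr_fun this γ
    rw [htr, hγ] at h2
    simpa using h2
  choose w hw using hdivL
  have hn0 : (n : ℤ) ≠ 0 := by exact_mod_cast NeZero.ne n
  let e : Module.End ℤ (periodLattice N) :=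
    { toFun := w
      map_add' := fun a b => smul_right_injective _ hn0 (by simp only [smul_add, hw, map_add])
      map_smul' := fun r a => smul_right_injective _ hn0 (by
        simp only [RingHom.id_apply, hw, map_smul, smul_comm (n : ℤ) r]) }
  have ht : latticeAct hNS t ∈ (Ideal.span {(p : ℤ)}) ^ (j + c) •
      (⊤ : Submodule ℤ (Module.End ℤ (periodLattice N))) ⊓ LinearMap.range (latticeAct hNS) := by
    refine ⟨?_, ⟨t, rfl⟩⟩
    have : latticeAct hNS t = (n : ℤ) • e := LinearMap.ext fun v => (hw v).symm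
    rw [this]
    refine Submodule.smul_mem_smul ?_ Submodule.mem_top
    rw [hn, Nat.cast_pow]
    exact Ideal.pow_mem_pow (Ideal.mem_span_singleton_self _) _
  rw [hc (j + c) (Nat.le_add_left c j), Nat.add_sub_cancel, Ideal.span_singleton_pow,
    Submodule.ideal_span_singleton_smul] at ht
  obtain ⟨y, ⟨-, u, rfl⟩, hy⟩ := ht
  refine ⟨u, latticeAct_injective hNS ?_⟩
  have hy' : ((p : ℤ) ^ j) • latticeAct hNS u = latticeAct hNS t := hy
  rw [← hy', ← map_zsmul, zsmul_eq_mul]
  push_cast
  rfl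

/-- Division by a nonzero integer costs a bounded power of `p`. -/
theorem dvd_pow_of_natCast_mul {R : Type*} [CommRing R] [IsAddTorsionFree R]
    (hp : p.Prime) {d : ℕ} (hd : d ≠ 0) (j : ℕ) {t u : R}
    (h : (d : R) * t = (p : R) ^ (j + d.factorization p) * u) :
    ∃ v : R, t = (p : R) ^ j * v := by
  set a := d.factorization p
  obtain ⟨d', hd'⟩ := Nat.ordProj_dvd d p
  have hcop : Nat.Coprime d' (p ^ j) := by
    refine Nat.Coprime.pow_right j (Nat.Coprime.symm ((Nat.Prime.coprime_iff_not_dvd hp).mpr ?_))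
    intro hdvd
    apply Nat.not_dvd_ordCompl hp hd
    rwa [show d / p ^ d.factorization p = d' by
      exact Nat.div_eq_of_eq_mul_right (pow_pos hp.pos _) hd']
  have h1 : (d' : R) * t = (p : R) ^ j * u := by
    refine nsmul_right_injective (M := R) (pow_ne_zero a hp.ne_zero) ?_
    simp only [nsmul_eq_mul]
    have hcast : (d : R) = ((p ^ a : ℕ) : R) * d' := by rw [← Nat.cast_mul, ← hd']
    rw [hcast, pow_add, ← Nat.cast_pow p a] at h
    linear_combination h
  obtain ⟨x, y, hxy⟩ : IsCoprime (d' : ℤ) ((p ^ j : ℕ) : ℤ) := hcop.cast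
  have hxy' : (x : R) * d' + (y : R) * (p : R) ^ j = 1 := by
    have := congrArg (fun z : ℤ => (z : R)) hxy
    push_cast at this
    exact this
  exact ⟨x * u + y * t, by linear_combination (x : R) * h1 - t * hxy'⟩

omit [NeZero N] in
/-- Evaluating `d P` at `χ` is evaluating `P` at `d χ`. -/
theorem lift_natCast_mul_apply (n d : ℕ) (P : FreeHecke S) (χ : ParChar N n) :
    FreeAlgebra.lift ℤ (parTransfer hNS n) ((d : FreeHecke S) * P) χ
      = FreeAlgebra.lift ℤ (parTransfer hNS n) P ((d : ℤ) • χ) := by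
  rw [map_mul, map_natCast, Module.End.mul_apply, Module.End.natCast_apply, natCast_zsmul,
    map_nsmul]

omit [NeZero N] in
/-- `n` kills the characters with values in `ℤ/n`. -/
theorem nsmul_parChar_eq_zero {n : ℕ} (χ : ParChar N n) : n • χ = 0 := by
  refine Subtype.ext (AddMonoidHom.ext fun γ => ?_)
  rw [Submodule.coe_smul_of_tower, AddMonoidHom.nsmul_apply, nsmul_eq_mul, ZMod.natCast_self,
    zero_mul]
  rfl

/-- The multiples `d χ` of the characters killed by all Hecke relations. -/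
abbrev scaledRelChars (n d : ℕ) : Submodule ℤ (ParChar N n) :=
  (relChars hNS n).map (LinearMap.lsmul ℤ (ParChar N n) d)

omit [NeZero N] in
/-- The Galois action on the characters commutes with the Hecke operators. -/
theorem lift_parTransfer_rep (G : KummerES.Gamma0Modules N p) (k : ℕ) (σ : Gal) (P : FreeHecke S)
    (χ : ParChar N (p ^ k)) :
    FreeAlgebra.lift ℤ (parTransfer hNS (p ^ k)) P (G.rep k σ χ) =
      G.rep k σ (FreeAlgebra.lift ℤ (parTransfer hNS (p ^ k)) P χ) := by
  induction P using FreeAlgebra.induction generalizing χ with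
  | grade0 c => simp
  | grade1 ℓ =>
    have := Fact.mk (ℓ : Nat.Primes).2
    simp only [FreeAlgebra.lift_ι_apply]
    exact Subtype.ext (G.hecke_comm k σ _ (ℓ : Nat.Primes).2
      (fun h => ℓ.2 (hNS _ (ℓ : Nat.Primes).2 h)) χ (parTransfer hNS (p ^ k) ℓ χ) rfl)
  | add a b ha hb => simp [ha, hb]
  | mul a b ha hb => simp [ha, hb]

/-- The Galois action preserves the characters killed by all Hecke relations. -/
theorem rep_mem_relChars (G : KummerES.Gamma0Modules N p) {k : ℕ} (σ : Gal)
    {χ : ParChar N (p ^ k)} (hχ : χ ∈ relChars hNS (p ^ k)) :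
    G.rep k σ χ ∈ relChars hNS (p ^ k) := by
  rw [mem_relChars] at hχ ⊢
  intro Q hQ
  rw [lift_parTransfer_rep, hχ Q hQ, map_zero]

/-- For `d ≠ 0` and some `k` the Hecke algebra acts on the multiples `d χ` of the characters killed
by all Hecke relations, commuting with Galois, with the Eichler–Shimura relation and faithfully
modulo `p ^ j`.  Flat and unipotent Hecke modules add the condition at the special prime. -/
theorem exists_heckeModule_scaledRelChars (hp : p.Prime) (G : KummerES.Gamma0Modules N p) {d : ℕ}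
    (hd : d ≠ 0) (j : ℕ) :
    ∃ (k : ℕ) (_ : Module (CuspForm.heckeAlgebra N 2 S) (scaledRelChars hNS (p ^ k) d))
      (r : Gal →* Module.End (CuspForm.heckeAlgebra N 2 S) (scaledRelChars hNS (p ^ k) d)),
      (∀ σ x, ((r σ x : scaledRelChars hNS (p ^ k) d) : ParChar N (p ^ k)) = G.rep k σ x) ∧
      (∀ x : scaledRelChars hNS (p ^ k) d, p ^ k • x = 0) ∧
      GaloisFactorsThroughFiniteLevel r ∧
      (∀ (ℓ : ℕ) (hℓ : ℓ.Prime) (hℓN : ¬ ℓ ∣ N) (hℓS : ℓ ∉ S), ℓ ∉ ({p} : Finset ℕ) →
        ∀ A : ValuationSubring (AlgebraicClosure ℚ), A.LiesOverPrime ℓ →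
          ∀ φ : Gal, A.IsFrobeniusAt φ ℓ → ∀ x : scaledRelChars hNS (p ^ k) d,
            r φ (r φ x)
              - (CuspForm.heckeAlgebra.T hℓ hℓN hℓS : CuspForm.heckeAlgebra N 2 S) • r φ x
              + ℓ • x = 0) ∧
      ∀ t : CuspForm.heckeAlgebra N 2 S, (∀ x : scaledRelChars hNS (p ^ k) d, t • x = 0) →
        ∃ u : CuspForm.heckeAlgebra N 2 S,
          t = (p : CuspForm.heckeAlgebra N 2 S) ^ j * u := by
  classical
  obtain ⟨k, hk⟩ := exists_forall_dvd_of_relChars hNS hp.ne_zero (j + d.factorization p)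
  let X := ParChar N (p ^ k)
  let L := FreeAlgebra.lift ℤ (parTransfer hNS (p ^ k))
  let M := scaledRelChars hNS (p ^ k) d
  have hLrel : ∀ P (χ : X), χ ∈ relChars hNS (p ^ k) → L P χ ∈ relChars hNS (p ^ k) := by
    intro P χ hχ
    rw [mem_relChars] at hχ ⊢
    intro Q hQ
    rw [← Module.End.mul_apply, ← map_mul]
    exact hχ _ (by rw [map_mul, hQ, zero_mul])
  have hLM : ∀ P (m : X), m ∈ M → L P m ∈ M := by
    rintro P _ ⟨χ, hχ, rfl⟩
    exact ⟨L P χ, hLrel P χ hχ, by simp⟩
  have hMrel : ∀ P, evalFree hNS P = 0 → ∀ m ∈ M, L P m = 0 := by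
    rintro P hP _ ⟨χ, hχ, rfl⟩
    show L P ((d : ℤ) • χ) = 0
    rw [map_zsmul, (mem_relChars hNS).mp hχ P hP, smul_zero]
  have hσM : ∀ σ (m : X), m ∈ M → G.rep k σ m ∈ M := by
    rintro σ _ ⟨χ, hχ, rfl⟩
    exact ⟨G.rep k σ χ, rep_mem_relChars hNS G σ hχ, (map_zsmul (G.rep k σ) _ χ).symm⟩
  let ev : FreeHecke S →+* CuspForm.heckeAlgebra N 2 S := (evalFree hNS).toRingHom
  have hsur : Function.Surjective ev := evalFree_surjective hNS
  let act : FreeHecke S →+* AddMonoid.End M :=
    { toFun := fun P =>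
        { toFun := fun x => ⟨L P x, hLM P x x.2⟩
          map_zero' := Subtype.ext (map_zero _)
          map_add' := fun x y => Subtype.ext (map_add _ (x : X) (y : X)) }
      map_one' := AddMonoidHom.ext fun x => Subtype.ext (by
        show L 1 (x : X) = x
        rw [map_one]; rfl)
      map_mul' := fun P Q => AddMonoidHom.ext fun x => Subtype.ext (by
        show L (P * Q) (x : X) = L P (L Q x)
        rw [map_mul]; rfl)
      map_zero' := AddMonoidHom.ext fun x => Subtype.ext (by
        show L 0 (x : X) = 0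
        rw [map_zero]; rfl)
      map_add' := fun P Q => AddMonoidHom.ext fun x => Subtype.ext (by
        show L (P + Q) (x : X) = L P x + L Q x
        rw [map_add]; rfl) }
  have hker : RingHom.ker ev ≤ RingHom.ker act := fun P hP =>
    AddMonoidHom.ext fun x => Subtype.ext (hMrel P hP x x.2)
  let φ : CuspForm.heckeAlgebra N 2 S →+* AddMonoid.End M :=
    RingHom.liftOfRightInverse ev (Function.surjInv hsur) (Function.surjInv_eq hsur) ⟨act, hker⟩
  let _ : Module (CuspForm.heckeAlgebra N 2 S) M := Module.compHom M φ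
  have hsmul : ∀ P (x : M), ((ev P • x : M) : X) = L P x := fun P x =>
    congrArg Subtype.val (DFunLike.congr_fun (RingHom.liftOfRightInverse_comp_apply ev
      (Function.surjInv hsur) (Function.surjInv_eq hsur) ⟨act, hker⟩ P) x)
  let gal : Gal → Module.End (CuspForm.heckeAlgebra N 2 S) M := fun σ =>
    { toFun := fun x => ⟨G.rep k σ x, hσM σ x x.2⟩
      map_add' := fun x y => Subtype.ext (map_add _ (x : X) (y : X))
      map_smul' := fun t x => by
        obtain ⟨P, rfl⟩ := hsur t
        refine Subtype.ext ?_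
        show G.rep k σ ((ev P • x : M) : X) = ((ev P • (⟨G.rep k σ x, _⟩ : M) : M) : X)
        rw [hsmul, hsmul]
        exact (lift_parTransfer_rep hNS G k σ P x).symm }
  let r : Gal →* Module.End (CuspForm.heckeAlgebra N 2 S) M :=
    { toFun := gal
      map_one' := LinearMap.ext fun x => Subtype.ext (by
        show G.rep k 1 (x : X) = x
        rw [map_one]; rfl)
      map_mul' := fun σ τ => LinearMap.ext fun x => Subtype.ext (by
        show G.rep k (σ * τ) (x : X) = G.rep k σ (G.rep k τ x)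
        rw [map_mul]; rfl) }
  refine ⟨k, inferInstance, r, fun σ x => rfl,
    fun m => Subtype.ext (nsmul_parChar_eq_zero (m : X)), ?_, ?_, ?_⟩
  · obtain ⟨K, hK, hfix⟩ := G.finiteLevel k
    exact ⟨K, hK, fun σ hσ => LinearMap.ext fun x => Subtype.ext
      (DFunLike.congr_fun (hfix σ hσ) (x : X))⟩
  · intro ℓ hℓ hℓN hℓS hℓp A hA φ' hφ' x
    rw [Finset.mem_singleton] at hℓp
    have := Fact.mk hℓ
    have hT : ev (FreeAlgebra.ι ℤ ⟨⟨ℓ, hℓ⟩, hℓS⟩)
        = (CuspForm.heckeAlgebra.T hℓ hℓN hℓS : CuspForm.heckeAlgebra N 2 S) := by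
      simp [ev, evalFree]
    rw [← hT]
    refine Subtype.ext ?_
    have e1 : ((ev (FreeAlgebra.ι ℤ ⟨⟨ℓ, hℓ⟩, hℓS⟩) • r φ' x : M) : X)
        = parTransfer hNS (p ^ k) ⟨⟨ℓ, hℓ⟩, hℓS⟩ (G.rep k φ' (x : X)) := by
      rw [hsmul]
      simp only [L, FreeAlgebra.lift_ι_apply]
      rfl
    show G.rep k φ' (G.rep k φ' (x : X)) -
      ((ev (FreeAlgebra.ι ℤ ⟨⟨ℓ, hℓ⟩, hℓS⟩) • r φ' x : M) : X) + ℓ • (x : X) = 0
    rw [e1]
    exact Subtype.ext (G.frobenius k ℓ hℓ hℓN hℓp A hA φ' hφ' (x : X))
  · intro t ht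
    obtain ⟨P, rfl⟩ := hsur t
    obtain ⟨u, hu⟩ := hk ((d : FreeHecke S) * P) fun χ hχ => by
      have hm : ((d : ℤ) • χ : X) ∈ M := ⟨χ, hχ, rfl⟩
      have h1 : L P ((d : ℤ) • χ : X) = 0 := by
        have h2 := congrArg Subtype.val (ht ⟨_, hm⟩)
        rw [hsmul] at h2
        exact h2
      exact (lift_natCast_mul_apply hNS (p ^ k) d P χ).trans h1
    rw [map_mul, map_natCast] at hu
    have := isAddTorsionFree_heckeAlgebra N S
    exact dvd_pow_of_natCast_mul hp hd j hu

include hNS in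
/-- Flat Hecke modules from equivariant divisor maps and flat models of the torsion of `J₀(N)`. -/
theorem hasFlatHeckeModules_of_divisorMaps (hp : p.Prime) (G : KummerES.Gamma0Modules N p)
    {d : ℕ} (hd : d ≠ 0) (hΦ : HasDivisorMaps G d) (hflat : JacobianHasFlatModels N p) :
    HasFlatHeckeModules N S p := by
  classical
  intro j
  obtain ⟨k, _, r, hr, htors, hlevel, hfrob, hfaith⟩ :=
    exists_heckeModule_scaledRelChars hNS hp G hd j
  refine ⟨_, _, inferInstance, r, k, {p}, htors, hlevel, ?_, hfrob, hfaith⟩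
  obtain ⟨Φ, hΦσ, hΦker⟩ := hΦ k
  -- flat model on the image of the divisor map
  set act₀ : Gal → Submodule.torsionBy ℤ (JZero N) ((p : ℤ) ^ k) →
      Submodule.torsionBy ℤ (JZero N) ((p : ℤ) ^ k) := fun σ x =>
    ⟨σ • (x : JZero N), by
      have hx := x.2
      rw [Submodule.mem_torsionBy_iff] at hx ⊢
      have := map_zsmul (DistribSMul.toAddMonoidHom (JZero N) σ) ((p : ℤ) ^ k) (x : JZero N)
      simp only [DistribSMul.toAddMonoidHom_apply] at this
      rw [← this, hx]
      exact (DistribSMul.toAddMonoidHom (JZero N) σ).map_zero⟩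
  have hmodel : HasFlatModel p act₀ := by
    obtain ⟨H, _, _, hfinH, -, -, e, hadd, hactH⟩ := hflat k
    have := hfinH
    have := finite_points (p := p) H
    have : Finite (Submodule.torsionBy ℤ (JZero N) ((p : ℤ) ^ k)) := Finite.of_equiv _ e
    exact of_hopfAlgebra e hadd fun σ f g hfg => Subtype.ext (hactH σ f g hfg)
  let X := ParChar N (p ^ k)
  let R := relChars hNS (p ^ k)
  let Ψ : R →+ Submodule.torsionBy ℤ (JZero N) ((p : ℤ) ^ k) :=
    { toFun := fun χ => ⟨Φ χ, by
        rw [Submodule.mem_torsionBy_iff, ← Nat.cast_pow, natCast_zsmul, ← map_nsmul,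
          nsmul_parChar_eq_zero, map_zero]⟩
      map_zero' := Subtype.ext (map_zero Φ)
      map_add' := fun a b => Subtype.ext (map_add Φ (a : X) (b : X)) }
  have hI : HasFlatModel p (fun σ (y : Ψ.range) => (⟨act₀ σ y, by
      obtain ⟨χ, hχ⟩ := y.2
      refine ⟨⟨G.rep k σ χ, rep_mem_relChars hNS G σ χ.2⟩, Subtype.ext ?_⟩
      show Φ (G.rep k σ χ) = σ • ((y : Submodule.torsionBy ℤ (JZero N) ((p : ℤ) ^ k)) : JZero N)
      rw [hΦσ, ← hχ]; rfl⟩ : Ψ.range)) :=
    hmodel.of_injective Ψ.range.subtype Subtype.val_injective fun σ y => rfl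
  let pre : Ψ.range → R := fun y => y.2.choose
  have hpre : ∀ y, Ψ (pre y) = y := fun y => y.2.choose_spec
  have hd' : ∀ a b : R, Ψ a = Ψ b → (d : ℤ) • (a : X) = (d : ℤ) • (b : X) := by
    intro a b hab
    have h := hΦker ((a : X) - (b : X)) (by
      rw [map_sub, sub_eq_zero]
      exact congrArg Subtype.val hab)
    rw [nsmul_sub, sub_eq_zero] at h
    rw [natCast_zsmul, natCast_zsmul]
    exact h
  let q : Ψ.range →+ scaledRelChars hNS (p ^ k) d :=
    { toFun := fun y => ⟨(d : ℤ) • (pre y : X), ⟨pre y, (pre y).2, rfl⟩⟩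
      map_zero' := Subtype.ext ((hd' (pre 0) 0 (by rw [hpre, map_zero]; rfl)).trans
        (smul_zero _))
      map_add' := fun a b => Subtype.ext ((hd' (pre (a + b)) (pre a + pre b)
        (by rw [hpre, map_add, hpre, hpre]; rfl)).trans (smul_add _ (pre a : X) (pre b : X))) }
  refine hI.of_surjective q ?_ ?_
  · rintro ⟨_, χ, hχ, rfl⟩
    exact ⟨⟨Ψ ⟨χ, hχ⟩, ⟨χ, hχ⟩, rfl⟩, Subtype.ext (hd' _ ⟨χ, hχ⟩ (hpre _))⟩
  · intro σ y
    refine Subtype.ext ((hd' _ ⟨G.rep k σ (pre y), rep_mem_relChars hNS G σ (pre y).2⟩ ?_).trans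
      ((map_zsmul (G.rep k σ) _ _).symm.trans (hr σ (q y)).symm))
    rw [hpre]
    refine Subtype.ext ?_
    show σ • ((y : Submodule.torsionBy ℤ (JZero N) ((p : ℤ) ^ k)) : JZero N) = Φ (G.rep k σ _)
    rw [hΦσ, ← hpre y]; rfl

end Fermat.Agent.KummerDivisor
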