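import Fermat.Agent.KummerDivisor.Flat
import Fermat.Agent.KummerES.ModulesFinal

/-!
# Flatness at `p` from the flat models of the torsion of `J₀(N)` alone

The Galois modules on parabolic characters exist unconditionally at level `6 N`.
-/

set_option autoImplicit false

noncomputable section

open CongruenceSubgroup
open scoped MatrixGroups

namespace Fermat.Agent.KummerDivisor

open KummerES in
/-- Galois modules of `Γ₀(N)` with algebraic roots. -/
theorem exists_modules_algebraicRoots (N p : ℕ) [NeZero N] [NeZero p] (hp : p.Prime) :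
    ∃ G : Gamma0Modules N p, HasAlgebraicRoots G complexEmbedding.toRingHom := by
  have hN6 : NeZero (6 * N) := ⟨mul_ne_zero (by norm_num) (NeZero.ne N)⟩
  let C : ConjLevel (Gamma0 N) N (6 * N) :=
    conjLevelTwo (dvd_mul_of_dvd_left (by norm_num) N) (isDiagStable_gamma0 N) (dvd_mul_left N 6)
  exact ⟨gamma0ModulesOfLevel hp C (rigidityProp _),
    hasAlgebraicRoots C _ fun k σ => rfl⟩

variable {p : ℕ} {N : ℕ} [NeZero N] {S : Finset ℕ}
  {𝒪 : Type} [CommRing 𝒪] [IsDomain 𝒪] [IsDiscreteValuationRing 𝒪]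
  [IsAdicComplete (IsLocalRing.maximalIdeal 𝒪) 𝒪]
  {θ : CuspForm.heckeAlgebra N 2 (↑S : Set ℕ) →+* IsLocalRing.ResidueField 𝒪}
  {T : Type} [CommRing T] [IsLocalRing T] [IsNoetherianRing T]
  [IsAdicComplete (IsLocalRing.maximalIdeal T) T] [Algebra 𝒪 T] [IsLocalHom (algebraMap 𝒪 T)]
  [Module.Finite 𝒪 T] [Module.Free 𝒪 T]

/-- Flatness at `p`, given finite flat models of the `p`-power torsion of `J₀(N)`. -/
theorem isFlatAt_of_jacobianModels [Finite (IsLocalRing.ResidueField 𝒪)]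
    (hp : p.Prime) (hp𝒪 : (p : 𝒪) ∈ IsLocalRing.maximalIdeal 𝒪)
    (hNS : ∀ q : ℕ, q.Prime → q ∣ N → q ∈ S)
    (H : CuspForm.HeckeGaloisRepDatum N (↑S : Set ℕ) 𝒪 θ T)
    (hflat : FlatModels.JacobianHasFlatModels N p) : H.ρ.IsFlatAt p := by
  have : NeZero p := ⟨hp.ne_zero⟩
  obtain ⟨G, hG⟩ := exists_modules_algebraicRoots N p hp
  exact isFlatAt_of_algebraicRoots hp hp𝒪 hNS H G hG hflat

end Fermat.Agent.KummerDivisor
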