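import Fermat.Agent.KummerDivisor.Kummer
import Fermat.Agent.KummerDivisor.HeckeModules
import Fermat.Agent.KummerES.ConjugateRep
import Fermat.Agent.KummerES.HeckeWeak
import Fermat.Agent.KummerES.ConjugateLevel

/-!
# Equivariant maps from parabolic characters to `J₀(N)`

When every parabolic character has a root with algebraic power and the Galois action is read on
the coefficients of these powers, the classes of `(6 N / p^k) div f` give `HasDivisorMaps`.
-/

set_option autoImplicit false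

noncomputable section

open UpperHalfPlane CongruenceSubgroup AlgebraicCurve ModularCurve
open ModularCurve.Period (IsParabolicHom parabolicHoms)
open scoped MatrixGroups Manifold

namespace Fermat.Agent.KummerDivisor

open HeckeDatum (ParChar)

local notation "Qbar" => AlgebraicClosure ℚ
local notation "Gal" => AlgebraicClosure ℚ ≃ₐ[ℚ] AlgebraicClosure ℚ

variable {N : ℕ} [NeZero N] {p : ℕ}

/-- Every character has a root with algebraic power, conjugation of which computes the action. -/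
def HasAlgebraicRoots [NeZero p] (G : KummerES.Gamma0Modules N p) (ι : Qbar →+* ℂ) : Prop :=
  ∀ (k : ℕ) (σ : Gal) (χ : ParChar N (p ^ k)), ∃ (g g' : ℍ → ℂ)
    (h : IsAlgRoot ι χ.1 g) (h' : IsAlgRoot ι (G.rep k σ χ).1 g'),
    (h'.fn : LaurentSeries Qbar) = coeffMap (σ : Qbar →+* Qbar) h.fn

/-- The divisor maps. -/
theorem hasDivisorMaps [NeZero p] (G : KummerES.Gamma0Modules N p) {ι : Qbar →+* ℂ}
    (hG : HasAlgebraicRoots G ι) : HasDivisorMaps G (6 * N) := by
  intro k
  have hex : ∀ χ : ParChar N (p ^ k), ∃ x, IsKummerClass ι χ.1 x := fun χ => by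
    obtain ⟨g, -, h, -, -⟩ := hG k 1 χ
    exact exists_isKummerClass h χ.2
  choose φ hφ using hex
  let Φ : ParChar N (p ^ k) →+ JZero N :=
    AddMonoidHom.mk' φ fun a b => (hφ (a + b)).unique ((hφ a).add (hφ b))
  refine ⟨Φ, fun σ χ => ?_, fun χ hχ => ?_⟩
  · obtain ⟨g, g', h, h', hconj⟩ := hG k σ χ
    exact (hφ _).unique (IsKummerClass.smul (h₁ := h) (h₂ := h') hconj (hφ χ) χ.2)
  · have h0 : φ χ = 0 := hχ
    have h := IsKummerClass.nsmul_eq_zero (h0 ▸ hφ χ)
    exact Subtype.ext (by rw [Submodule.coe_smul_of_tower, h]; rfl)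

variable {L : ℕ} [NeZero L] {B : Subring ℂ}

/-- A `Γ₀(N)`-invariant weak function of level a multiple of `N` has width `N` at every cusp. -/
theorem mem_weak_width (hNL : N ∣ L) {f : ℍ → ℂ} (hinv : ∀ γ ∈ Gamma0 N, KummerES.comp f γ = f)
    (hf : f ∈ KummerES.weak (Gamma L) L B) : f ∈ KummerES.weak (Gamma0 N) N B := by
  obtain ⟨M, rfl⟩ := hNL
  have : NeZero M := ⟨fun h => NeZero.ne (N * M) (by rw [h, mul_zero])⟩
  refine ⟨hf.1, hinv, fun δ => ?_⟩
  obtain ⟨s, hs, hs'⟩ := hf.2.2 δ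
  refine KummerES.exists_hasExp_of_comp_T_pow hs' hs ?_
  rw [KummerES.comp_comp, show δ * ModularGroup.T ^ (N : ℤ) =
    δ * ModularGroup.T ^ (N : ℤ) * δ⁻¹ * δ by group, ← KummerES.comp_comp,
    hinv _ (gamma_le_gamma0 N (KummerES.T_zpow_conj_mem_Gamma N δ))]

/-- Algebraic roots from a level with conjugation, if every character has a root there whose power
has algebraic coefficients. -/
theorem hasAlgebraicRoots_of_conjLevel [NeZero p] (S : KummerES.ConjLevel (Gamma0 N) N L)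
    (G : KummerES.Gamma0Modules N p) (hG : ∀ (k : ℕ) (σ : Gal), G.rep k σ = S.galRep σ)
    (halg : ∀ (k : ℕ) (χ : ParChar N (p ^ k)), ∃ g, KummerES.IsKummer L (p ^ k) χ.1 g ∧
      g ^ p ^ k ∈ KummerES.weak (Gamma L) L complexEmbedding.toRingHom.range) :
    HasAlgebraicRoots G complexEmbedding.toRingHom := by
  intro k σ χ
  obtain ⟨g, hg, hgB⟩ := halg k χ
  obtain ⟨σ', hσ'⟩ := KummerES.exists_aut_extend_galois σ
  obtain ⟨c, hc, hσc⟩ := KummerES.exists_pow_zetaC L (σ' : ℂ →+* ℂ)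
  obtain ⟨ψ, g', hg', hconj⟩ := S.exists_conj σ' hc hσc hg
  have hψ : G.rep k σ χ = ψ := by
    rw [hG k σ]
    exact S.galRep_spec hσ' ⟨c, g, g', hc, hσc, hg, hg', hconj⟩
  have hσB : ∀ z ∈ complexEmbedding.toRingHom.range, σ' z ∈ complexEmbedding.toRingHom.range := by
    rintro _ ⟨x, rfl⟩
    exact ⟨σ x, (hσ' x).symm⟩
  have hg'B : g' ^ (p ^ k) ∈ KummerES.weak (Gamma L) L complexEmbedding.toRingHom.range := by
    refine ⟨hg'.pow_mem.1, hg'.pow_mem.2.1, fun δ => ?_⟩
    obtain ⟨δ', hδ'⟩ := KummerES.exists_twistRel_of_coprime hc δ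
    refine ⟨_, fun i => ?_, KummerES.hasExp_expansion hg'.pow_mem δ⟩
    rw [hconj.2.2 δ δ' hδ', coeffMap_coeff]
    exact hσB _ (KummerES.expansion_mem hgB δ' i)
  have hinv : ∀ (φ : Additive (Gamma0 N) →+ ZMod (p ^ k)) (u : ℍ → ℂ),
      KummerES.IsKummer L (p ^ k) φ u →
      ∀ γ ∈ Gamma0 N, KummerES.comp (u ^ (p ^ k)) γ = u ^ (p ^ k) :=
    fun _ u hu γ hγ => hu.pow_comp_eq hγ
  have h : IsAlgRoot complexEmbedding.toRingHom χ.1 g :=
    ⟨hg.ne_zero, hg.holo, hg.comp_eq, mem_weak_width S.dvd_N (hinv _ g hg) hgB⟩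
  have h' : IsAlgRoot complexEmbedding.toRingHom (G.rep k σ χ).1 g' :=
    ⟨hg'.ne_zero, hg'.holo, by rw [hψ]; exact hg'.comp_eq,
      mem_weak_width S.dvd_N (hinv _ g' hg') hg'B⟩
  refine ⟨g, g', h, h', ModularAnalytic.toField_eq N N complexEmbedding.toRingHom ?_⟩
  obtain ⟨M, hM⟩ := S.dvd_N
  have : NeZero M := ⟨fun h0 => NeZero.ne L (by rw [hM, h0, mul_zero])⟩
  subst hM
  have hN : ∀ u : KummerES.weak (Gamma0 N) N complexEmbedding.toRingHom.range,
      KummerES.expansion (N * M) u.1 = qExpand ℂ M (KummerES.expansion N u.1) := fun u => by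
    have h0 := KummerES.hasExp_expansion u.2 1
    rw [KummerES.comp_one] at h0
    exact (h0.dilate M).expansion_eq
  have hs := KummerES.hasExp_expansion h'.pow_mem 1
  rw [KummerES.comp_one] at hs
  refine (ModularAnalytic.hasExp_of_kummer hs).congr_series (qExpand_injective M ?_)
  rw [← hN ⟨g' ^ (p ^ k), h'.pow_mem⟩, hconj.expansion_eq, hN ⟨g ^ (p ^ k), h.pow_mem⟩,
    ModularFunctionField.coeffMap_qExpand']
  congr 1
  rw [← ModularAnalytic.qExpand_coeffMap_toField N N complexEmbedding.toRingHom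
      ⟨g ^ (p ^ k), h.pow_mem⟩,
    ModularFunctionField.coeffMap_qExpand', coeffMap_coeffMap, coeffMap_coeffMap]
  congr 1
  exact coeffMap_congr (RingHom.ext fun x => hσ' x) _

end Fermat.Agent.KummerDivisor
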