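import Fermat.Agent.KummerDivisor.FibrePlaces
import Fermat.Agent.FunctionField.PlaceExists
import Mathlib.RingTheory.Valuation.Basic
import Mathlib.Algebra.BigOperators.WithTop

/-!
# The places of a fibre

`A₀` is a ring of functions with fraction field `F`, embedded into a ring `A` in several
conjugate ways. Symmetric expressions in the conjugates lie in a subset `Inv`. Given a valuation
`V` of `A` and a place `v` of `F` ordering `Inv` compatibly with `V`, one of the conjugates of `V`
restricts to a positive multiple of `v.ord`.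
-/

set_option autoImplicit false

noncomputable section

open AlgebraicCurve Polynomial

namespace Fermat.Agent.KummerDivisor

/-- A ring of functions with its conjugate embeddings. -/
structure ConjugateData (K F A₀ A κ : Type*) [Field K] [Field F] [Algebra K F] [CommRing A₀]
    [CommRing A] [Fintype κ] where
  /-- The embedding into the function field. -/
  e : A₀ →+* F
  e_injective : Function.Injective e
  exists_div : ∀ x : F, ∃ a b, b ≠ 0 ∧ x = e a / e b
  /-- The inclusion. -/
  incl : A₀ →+* A
  /-- The conjugates. -/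
  conj : κ → A₀ →+* A
  conj_injective : ∀ i, Function.Injective (conj i)
  /-- The index of the inclusion. -/
  base : κ
  conj_base : conj base = incl
  /-- The invariant functions. -/
  Inv : Set A₀
  conj_inv : ∀ c ∈ Inv, ∀ i, conj i c = incl c
  coeff_mem : ∀ (a b : A₀) (k : ℕ), ∃ c ∈ Inv,
    incl c = (∏ i, (C (conj i b) * X - C (conj i a))).coeff k
  const_mem : ∀ z : K, ∃ c ∈ Inv, e c = algebraMap K F z

section

variable {R : Type*} [CommRing R] {κ : Type*}

/-- If `V (x i) ≤ V (y i)` for all `i`, no coefficient of `∏ (x i X - y i)` has smaller value than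
the leading one. -/
theorem sum_le_coeff_prod (V : AddValuation R (WithTop ℤ)) (x y : κ → R)
    (h : ∀ i, V (x i) ≤ V (y i)) (s : Finset κ) :
    ∀ k : ℕ, ∑ i ∈ s, V (x i) ≤ V ((∏ i ∈ s, (C (x i) * X - C (y i))).coeff k) := by
  classical
  induction s using Finset.induction_on with
  | empty =>
    intro k
    rcases k with _ | k <;> simp [coeff_one]
  | insert a s ha ih =>
    intro k
    rw [Finset.sum_insert ha, Finset.prod_insert ha, sub_mul, coeff_sub, mul_assoc, coeff_C_mul,
      coeff_C_mul]
    rcases k with _ | k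
    · rw [coeff_X_mul_zero, mul_zero, zero_sub, AddValuation.map_neg, AddValuation.map_mul]
      exact add_le_add (h a) (ih 0)
    · rw [coeff_X_mul]
      refine le_trans (le_min ?_ ?_) (AddValuation.map_sub V _ _)
      · rw [AddValuation.map_mul]; exact add_le_add le_rfl (ih k)
      · rw [AddValuation.map_mul]; exact add_le_add (h a) (ih (k + 1))

/-- `∏ (x i X - y i)` has degree at most the number of factors and leading coefficient `∏ x i`. -/
theorem coeff_prod_card (x y : κ → R) (s : Finset κ) :
    (∀ k, s.card < k → (∏ i ∈ s, (C (x i) * X - C (y i))).coeff k = 0) ∧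
      (∏ i ∈ s, (C (x i) * X - C (y i))).coeff s.card = ∏ i ∈ s, x i := by
  classical
  induction s using Finset.induction_on with
  | empty => exact ⟨fun k hk => by simp [coeff_one, (Nat.pos_iff_ne_zero.mp hk)], by simp⟩
  | insert a s ha ih =>
    rw [Finset.card_insert_of_notMem ha, Finset.prod_insert ha, Finset.prod_insert ha]
    refine ⟨fun k hk => ?_, ?_⟩
    · obtain ⟨k, rfl⟩ : ∃ l, k = l + 1 := ⟨k - 1, by omega⟩
      rw [sub_mul, coeff_sub, mul_assoc, coeff_C_mul, coeff_C_mul, coeff_X_mul,
        ih.1 k (by omega), ih.1 (k + 1) (by omega)]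
      simp
    · rw [sub_mul, coeff_sub, mul_assoc, coeff_C_mul, coeff_C_mul, coeff_X_mul, ih.2,
        ih.1 (s.card + 1) (by omega), mul_zero, sub_zero]

end

namespace ConjugateData

variable {K F A₀ A κ : Type*} [Field K] [Field F] [Algebra K F] [CommRing A₀] [CommRing A]
  [Fintype κ] (D : ConjugateData K F A₀ A κ)

/-- The map to the function field sends nonzero elements to nonzero elements. -/
theorem e_ne_zero {a : A₀} (ha : a ≠ 0) : D.e a ≠ 0 :=
  (map_ne_zero_iff _ D.e_injective).mpr ha

include D in
/-- The ring of functions is a domain, being embedded in a field. -/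
theorem isDomain : IsDomain A₀ := D.e_injective.isDomain D.e

variable (V : AddValuation A (WithTop ℤ)) (hV : ∀ a, V a = ⊤ → a = 0)

include hV

/-- The value at `a` of the conjugate `i` of `V`. -/
def val (i : κ) (a : A₀) : ℤ :=
  have := hV
  (V (D.conj i a)).untopD 0

/-- `val` is the value of the conjugate valuation at nonzero elements. -/
theorem coe_val (i : κ) {a : A₀} (ha : a ≠ 0) : (D.val V hV i a : WithTop ℤ) = V (D.conj i a) := by
  rcases h : V (D.conj i a) with _ | z
  · exact absurd (D.conj_injective i ((hV _ h).trans (map_zero _).symm)) ha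
  · simp [val, h]
    rfl

/-- `val` is additive on products. -/
theorem val_mul (i : κ) {a b : A₀} (ha : a ≠ 0) (hb : b ≠ 0) :
    D.val V hV i (a * b) = D.val V hV i a + D.val V hV i b := by
  have := D.isDomain
  apply WithTop.coe_injective
  rw [WithTop.coe_add, coe_val D V hV i ha, coe_val D V hV i hb,
    coe_val D V hV i (mul_ne_zero ha hb), map_mul, AddValuation.map_mul]

/-- Every nonzero element of the field is a quotient of images. -/
theorem exists_rep {x : F} (hx : x ≠ 0) : ∃ a b, a ≠ 0 ∧ b ≠ 0 ∧ x = D.e a / D.e b := by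
  have := hV
  obtain ⟨a, b, hb, rfl⟩ := D.exists_div x
  refine ⟨a, b, fun ha => hx ?_, hb, rfl⟩
  rw [ha, map_zero, zero_div]

open Classical in
/-- The extension of the conjugate `i` of `V` to the field. -/
def valF (i : κ) (x : F) : ℤ :=
  if hx : x = 0 then 0 else
    D.val V hV i (D.exists_rep V hV hx).choose
      - D.val V hV i (D.exists_rep V hV hx).choose_spec.choose

/-- `valF` of a quotient is the difference of the values. -/
theorem valF_div (i : κ) {a b : A₀} (ha : a ≠ 0) (hb : b ≠ 0) :
    D.valF V hV i (D.e a / D.e b) = D.val V hV i a - D.val V hV i b := by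
  have := D.isDomain
  have hx : D.e a / D.e b ≠ 0 := div_ne_zero (D.e_ne_zero ha) (D.e_ne_zero hb)
  rw [valF, dif_neg hx]
  obtain ⟨ha', hb', heq⟩ := (D.exists_rep V hV hx).choose_spec.choose_spec
  rw [div_eq_div_iff (D.e_ne_zero hb) (D.e_ne_zero hb'), ← map_mul, ← map_mul] at heq
  have := congrArg (D.val V hV i) (D.e_injective heq)
  rw [val_mul D V hV i ha hb', val_mul D V hV i ha' hb] at this
  omega

/-- `val` of `1` is `0`. -/
theorem val_one (i : κ) : D.val V hV i 1 = 0 := by
  simp [val]

/-- `valF` extends `val`. -/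
theorem valF_e (i : κ) {a : A₀} (ha : a ≠ 0) : D.valF V hV i (D.e a) = D.val V hV i a := by
  have := D.isDomain
  have h := valF_div D V hV i ha one_ne_zero
  rwa [map_one, div_one, val_one, sub_zero] at h

theorem valF_mul (i : κ) {x y : F} (hx : x ≠ 0) (hy : y ≠ 0) :
    D.valF V hV i (x * y) = D.valF V hV i x + D.valF V hV i y := by
  have := D.isDomain
  obtain ⟨a, b, ha, hb, rfl⟩ := D.exists_rep V hV hx
  obtain ⟨a', b', ha', hb', rfl⟩ := D.exists_rep V hV hy
  rw [div_mul_div_comm, ← map_mul, ← map_mul, valF_div D V hV i (mul_ne_zero ha ha')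
    (mul_ne_zero hb hb'), valF_div D V hV i ha hb, valF_div D V hV i ha' hb',
    val_mul D V hV i ha ha', val_mul D V hV i hb hb']
  ring

theorem valF_one (i : κ) : D.valF V hV i 1 = 0 := by
  have := D.isDomain
  have h := valF_e D V hV i (one_ne_zero (α := A₀))
  rwa [map_one, val_one] at h

theorem valF_neg (i : κ) {x : F} (hx : x ≠ 0) : D.valF V hV i (-x) = D.valF V hV i x := by
  have h1 := valF_mul D V hV i (neg_ne_zero.mpr (one_ne_zero (α := F)))
    (neg_ne_zero.mpr (one_ne_zero (α := F)))
  rw [neg_mul_neg, one_mul, valF_one] at h1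
  rw [← neg_one_mul, valF_mul D V hV i (neg_ne_zero.mpr one_ne_zero) hx]
  omega

theorem valF_inv (i : κ) {x : F} (hx : x ≠ 0) : D.valF V hV i x⁻¹ = -D.valF V hV i x := by
  have := valF_mul D V hV i hx (inv_ne_zero hx)
  rw [mul_inv_cancel₀ hx, valF_one] at this
  omega

/-- The ultrametric inequality for `valF`. -/
theorem valF_add (i : κ) {x y : F} (hx : x ≠ 0) (hy : y ≠ 0) (hxy : x + y ≠ 0) :
    min (D.valF V hV i x) (D.valF V hV i y) ≤ D.valF V hV i (x + y) := by
  have := D.isDomain
  obtain ⟨a, b, ha, hb, rfl⟩ := D.exists_rep V hV hx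
  obtain ⟨a', b', ha', hb', rfl⟩ := D.exists_rep V hV hy
  rw [div_add_div _ _ (D.e_ne_zero hb) (D.e_ne_zero hb'), ← map_mul, ← map_mul, ← map_mul,
    ← map_add] at hxy ⊢
  have hs : a * b' + b * a' ≠ 0 := fun h => hxy (by rw [h, map_zero, zero_div])
  rw [valF_div D V hV i hs (mul_ne_zero hb hb'), valF_div D V hV i ha hb,
    valF_div D V hV i ha' hb', val_mul D V hV i hb hb']
  have hle : min (D.val V hV i a + D.val V hV i b') (D.val V hV i b + D.val V hV i a')
      ≤ D.val V hV i (a * b' + b * a') := by
    rw [← WithTop.coe_le_coe, coe_val D V hV i hs, WithTop.coe_min, ← val_mul D V hV i ha hb',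
      ← val_mul D V hV i hb ha', coe_val D V hV i (mul_ne_zero ha hb'),
      coe_val D V hV i (mul_ne_zero hb ha'), map_add (D.conj i)]
    exact AddValuation.map_add V _ _
  omega

/-- The valuation ring of the conjugate `i`. -/
def ring (i : κ) : ValuationSubring F where
  carrier := {x | x = 0 ∨ 0 ≤ D.valF V hV i x}
  zero_mem' := Or.inl rfl
  one_mem' := Or.inr (valF_one D V hV i).ge
  neg_mem' := by
    rintro x (rfl | hx)
    · exact Or.inl neg_zero
    · rcases eq_or_ne x 0 with rfl | h0
      · exact Or.inl neg_zero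
      · exact Or.inr (by rw [valF_neg D V hV i h0]; exact hx)
  mul_mem' := by
    rintro x y hx hy
    rcases eq_or_ne x 0 with rfl | h0
    · exact Or.inl (zero_mul y)
    rcases eq_or_ne y 0 with rfl | h1
    · exact Or.inl (mul_zero x)
    refine Or.inr ?_
    rw [valF_mul D V hV i h0 h1]
    exact add_nonneg (hx.resolve_left h0) (hy.resolve_left h1)
  add_mem' := by
    rintro x y hx hy
    rcases eq_or_ne x 0 with rfl | h0
    · rwa [zero_add]
    rcases eq_or_ne y 0 with rfl | h1
    · rwa [add_zero]
    rcases eq_or_ne (x + y) 0 with h2 | h2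
    · exact Or.inl h2
    · exact Or.inr (le_trans (le_min (hx.resolve_left h0) (hy.resolve_left h1))
        (valF_add D V hV i h0 h1 h2))
  mem_or_inv_mem' := by
    intro x
    rcases eq_or_ne x 0 with rfl | h0
    · exact Or.inl (Or.inl rfl)
    rcases le_total 0 (D.valF V hV i x) with h | h
    · exact Or.inl (Or.inr h)
    · exact Or.inr (Or.inr (by rw [valF_inv D V hV i h0]; omega))

/-- Membership in the valuation ring of `valF`. -/
theorem mem_ring {i : κ} {x : F} : x ∈ D.ring V hV i ↔ x = 0 ∨ 0 ≤ D.valF V hV i x := Iff.rfl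

variable [FunctionField.IsFunctionField K F]

/-- One of the conjugates of `V` restricts to a positive multiple of the order at `v`. -/
theorem exists_conj_eq_ord_mul
    (hconst : ∀ c ∈ D.Inv, ∀ z : K, D.e c = algebraMap K F z → 0 ≤ V (D.incl c))
    {t : A₀} (ht : t ∈ D.Inv) (htop : V (D.incl t) ≠ ⊤) (hzero : V (D.incl t) ≠ 0)
    (v : Place K F)
    (hcomp : ∀ c ∈ D.Inv, ∀ c' ∈ D.Inv, c ≠ 0 → c' ≠ 0 → V (D.incl c') ≤ V (D.incl c) →
      v.ord (D.e c') ≤ v.ord (D.e c)) :
    ∃ (i : κ) (m : ℕ), 0 < m ∧ (∀ a, a ≠ 0 → V (D.conj i a) = ((v.ord (D.e a) * m : ℤ) : WithTop ℤ))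
      ∧ V (D.incl t) = ((v.ord (D.e t) * m : ℤ) : WithTop ℤ) := by
  classical
  have hdom := D.isDomain
  have ht0 : t ≠ 0 := fun h => htop (by rw [h, map_zero, AddValuation.map_zero])
  have htval : ∀ i, D.val V hV i t ≠ 0 := fun i h => hzero (by
    rw [← D.conj_inv t ht i, ← coe_val D V hV i ht0, h]; rfl)
  have hK : ∀ i, ∀ z : K, algebraMap K F z ∈ D.ring V hV i := by
    intro i z
    obtain ⟨c, hc, hz⟩ := D.const_mem z
    rw [mem_ring, or_iff_not_imp_left]
    intro h0
    have hc0 : c ≠ 0 := fun h => h0 (by rw [← hz, h, map_zero])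
    have := hconst c hc z hz
    rw [← D.conj_inv c hc i, ← coe_val D V hV i hc0] at this
    rw [← hz, valF_e D V hV i hc0]
    exact_mod_cast this
  have htop' : ∀ i, D.ring V hV i ≠ ⊤ := by
    intro i h
    have h1 : D.e t ∈ D.ring V hV i := h ▸ ValuationSubring.mem_top _
    have h2 : (D.e t)⁻¹ ∈ D.ring V hV i := h ▸ ValuationSubring.mem_top _
    rw [mem_ring] at h1 h2
    have h1' := h1.resolve_left (D.e_ne_zero ht0)
    have h2' := h2.resolve_left (inv_ne_zero (D.e_ne_zero ht0))
    rw [valF_inv D V hV i (D.e_ne_zero ht0), valF_e D V hV i ht0] at h2'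
    rw [valF_e D V hV i ht0] at h1'
    exact htval i (by omega)
  let w : κ → Place K F := fun i =>
    FunctionField.placeOfValuationSubring (D.ring V hV i) (hK i) (htop' i)
  have hw : ∀ i x, x ≠ 0 → (0 ≤ (w i).ord x ↔ 0 ≤ D.valF V hV i x) := by
    intro i x hx
    rw [← FFPlaces.mem_iff (w i)]
    exact ⟨fun h => ((mem_ring D V hV).mp h).resolve_left hx, fun h => Or.inr h⟩
  obtain ⟨i, hi⟩ := exists_eq_of_integral v w fun g hg => by
    rcases eq_or_ne g 0 with rfl | hg0
    · refine ⟨X, monic_X, fun k => ?_, by simp⟩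
      rw [coeff_X]; split <;> simp
    obtain ⟨a, b, ha, hb, hgab⟩ := D.exists_rep V hV hg0
    have hle : ∀ j, V (D.conj j b) ≤ V (D.conj j a) := by
      intro j
      have := (hw j g hg0).mp (hg j)
      rw [hgab, valF_div D V hV j ha hb] at this
      rw [← coe_val D V hV j ha, ← coe_val D V hV j hb, WithTop.coe_le_coe]
      omega
    choose c hc hcP using D.coeff_mem a b
    set n := Fintype.card κ with hn
    set Q : A[X] := ∏ j, (C (D.conj j b) * X - C (D.conj j a)) with hQ
    have hlead : D.incl (c n) = ∏ j, D.conj j b := by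
      rw [hcP, hQ]; exact (coeff_prod_card _ _ Finset.univ).2
    have hlead' : V (D.incl (c n)) = ∑ j, V (D.conj j b) := by
      rw [hlead]
      induction (Finset.univ : Finset κ) using Finset.induction_on with
      | empty => simp
      | insert x s hxs ih =>
        rw [Finset.prod_insert hxs, Finset.sum_insert hxs, AddValuation.map_mul, ih]
    have hcn : c n ≠ 0 := by
      intro h
      rw [h, map_zero, AddValuation.map_zero, eq_comm, WithTop.sum_eq_top] at hlead'
      obtain ⟨j, -, hj⟩ := hlead'
      exact hb (D.conj_injective j ((hV _ hj).trans (map_zero _).symm))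
    refine ⟨∑ k ∈ Finset.range (n + 1), monomial k (D.e (c k) / D.e (c n)), ?_, ?_, ?_⟩
    · refine monic_of_natDegree_le_of_coeff_eq_one n ?_ ?_
      · refine natDegree_sum_le_of_forall_le _ _ fun k hk => ?_
        exact (natDegree_monomial_le _).trans (Nat.lt_succ_iff.mp (Finset.mem_range.mp hk))
      · simp [coeff_monomial, div_self (D.e_ne_zero hcn)]
    · intro k
      simp only [finsetSum_coeff, coeff_monomial, Finset.sum_ite_eq', Finset.mem_range]
      split
      · rcases eq_or_ne (c k) 0 with h0 | h0
        · simp [h0]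
        rw [FFPlaces.ord_div v (D.e_ne_zero h0) (D.e_ne_zero hcn)]
        have := hcomp _ (hc k) _ (hc n) h0 hcn (by
          rw [hlead', hcP k]; exact sum_le_coeff_prod V _ _ hle Finset.univ k)
        omega
      · simp
    · have hroot : ∑ k ∈ Finset.range (n + 1), c k * a ^ k * b ^ (n - k) = 0 := by
        refine D.conj_injective D.base ?_
        rw [D.conj_base, map_zero, map_sum]
        simp only [map_mul, map_pow, hcP, hQ]
        have h0 : ∏ j, (D.conj j b * D.incl a - D.conj j a * D.incl b) = 0 :=
          Finset.prod_eq_zero (Finset.mem_univ D.base) (by rw [D.conj_base]; ring)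
        have key : ∀ s : Finset κ, ∏ j ∈ s, (D.conj j b * D.incl a - D.conj j a * D.incl b)
            = ∑ k ∈ Finset.range (s.card + 1),
              (∏ j ∈ s, (C (D.conj j b) * X - C (D.conj j a))).coeff k
                * D.incl a ^ k * D.incl b ^ (s.card - k) := by
          intro s
          induction s using Finset.induction_on with
          | empty => simp
          | insert x s hxs ih =>
            rw [Finset.prod_insert hxs, ih, Finset.prod_insert hxs,
              Finset.card_insert_of_notMem hxs]
            set R := ∏ j ∈ s, (C (D.conj j b) * X - C (D.conj j a))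
            have hR : R.coeff (s.card + 1) = 0 := (coeff_prod_card _ _ s).1 _ (Nat.lt_succ_self _)
            simp only [sub_mul, mul_assoc, coeff_sub, coeff_C_mul]
            rw [Finset.sum_sub_distrib]
            congr 1
            · rw [Finset.sum_range_succ' _ (s.card + 1), coeff_X_mul_zero, zero_mul, mul_zero,
                add_zero, Finset.mul_sum, Finset.mul_sum]
              refine Finset.sum_congr rfl fun k hk => ?_
              rw [coeff_X_mul, show s.card + 1 - (k + 1) = s.card - k by omega]
              ring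
            · rw [Finset.sum_range_succ _ (s.card + 1), hR, zero_mul, mul_zero, add_zero,
                Finset.mul_sum, Finset.mul_sum]
              refine Finset.sum_congr rfl fun k hk => ?_
              rw [show s.card + 1 - k = s.card - k + 1 by
                have := Finset.mem_range.mp hk; omega, pow_succ]
              ring
        rw [key, Finset.card_univ] at h0
        exact h0
      have hF := congrArg D.e hroot
      simp only [map_sum, map_mul, map_pow, map_zero] at hF
      have hbn : D.e (c n) * D.e b ^ n ≠ 0 :=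
        mul_ne_zero (D.e_ne_zero hcn) (pow_ne_zero _ (D.e_ne_zero hb))
      refine (mul_eq_zero.mp (?_ : D.e (c n) * D.e b ^ n * _ = 0)).resolve_left hbn
      rw [eval_finsetSum, Finset.mul_sum, ← hF]
      refine Finset.sum_congr rfl fun k hk => ?_
      rw [eval_monomial, hgab, div_pow,
        ← pow_mul_pow_sub (D.e b) (Nat.lt_succ_iff.mp (Finset.mem_range.mp hk))]
      have := D.e_ne_zero hcn
      have := pow_ne_zero k (D.e_ne_zero hb)
      field_simp
  obtain ⟨π, hπ0, hπ⟩ := FFPlaces.exists_uniformizer v
  have hunit : ∀ f : F, f ≠ 0 → v.ord f = 0 → D.valF V hV i f = 0 := by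
    intro f hf hf0
    have h1 := (hw i f hf).mp (by rw [hi]; omega)
    have h2 := (hw i f⁻¹ (inv_ne_zero hf)).mp (by rw [hi, v.ord_inv]; omega)
    rw [valF_inv D V hV i hf] at h2
    omega
  have hπpos : 0 < D.valF V hV i π := by
    have h1 := (hw i π hπ0).mp (by rw [hi]; omega)
    by_contra hle
    have h2 := (hw i π⁻¹ (inv_ne_zero hπ0)).mpr (by rw [valF_inv D V hV i hπ0]; omega)
    rw [hi, v.ord_inv] at h2
    omega
  have key : ∀ a, a ≠ 0 → V (D.conj i a) =
      ((v.ord (D.e a) * ((D.valF V hV i π).toNat : ℕ) : ℤ) : WithTop ℤ) := fun a ha => by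
    rw [Int.toNat_of_nonneg hπpos.le, ← coe_val D V hV i ha, ← valF_e D V hV i ha,
      FFPlaces.eq_ord_mul v _ (fun f g hf hg => valF_mul D V hV i hf hg) hunit hπ0 hπ
        (D.e_ne_zero ha)]
  exact ⟨i, _, by omega, key, by rw [← D.conj_inv t ht i]; exact key t ht0⟩

end ConjugateData

end Fermat.Agent.KummerDivisor
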