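import Fermat.Agent.FunctionField.Approx
import Fermat.Agent.FFPlaces.Basic
import Mathlib.Algebra.Polynomial.AlgebraMap

/-!
# Places in a fibre

A place `v` is among a finite family of places `w i` as soon as every function integral at all
`w i` is a root of a monic polynomial with coefficients integral at `v`. If an order function `ν`
is a positive multiple of `v.ord`, divisibility of values of `ν` transfers to `v.ord`.
-/

set_option autoImplicit false

noncomputable section

open AlgebraicCurve Polynomial

namespace Fermat.Agent.KummerDivisor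

variable {K F : Type*} [Field K] [Field F] [Algebra K F]

/-- A root of a monic polynomial with integral coefficients at a place is integral there. -/
theorem ord_nonneg_of_root (v : Place K F) {g : F} {P : F[X]} (hP : P.Monic)
    (hcoef : ∀ k, 0 ≤ v.ord (P.coeff k)) (hroot : P.eval g = 0) : 0 ≤ v.ord g := by
  by_contra hlt
  push Not at hlt
  have hg0 : g ≠ 0 := fun h => by simp [h] at hlt
  set n := P.natDegree with hn
  have hn0 : 0 < n := by
    by_contra h
    rw [hP.natDegree_eq_zero.mp (by omega), eval_one] at hroot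
    exact one_ne_zero hroot
  -- `1 = - ∑ c_k g^(k - n)` has positive order on the right
  have hmem : ∀ k < n, P.coeff k * (g ^ (n - k))⁻¹ = 0 ∨
      0 < v.ord (P.coeff k * (g ^ (n - k))⁻¹) := by
    intro k hk
    rcases eq_or_ne (P.coeff k) 0 with h | h
    · exact Or.inl (by rw [h, zero_mul])
    refine Or.inr ?_
    rw [v.ord_mul h (inv_ne_zero (pow_ne_zero _ hg0)), v.ord_inv, FFPlaces.ord_pow]
    have := hcoef k
    have : ((n - k : ℕ) : ℤ) * v.ord g < 0 := mul_neg_of_pos_of_neg (by omega) hlt
    omega
  have hsum : (1 : F) = -∑ k ∈ Finset.range n, P.coeff k * (g ^ (n - k))⁻¹ := by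
    rw [eq_neg_iff_add_eq_zero]
    have h1 := hroot
    rw [eval_eq_sum_range, Finset.sum_range_succ, ← hn, hP.coeff_natDegree, one_mul] at h1
    have h2 : ((∑ k ∈ Finset.range n, P.coeff k * g ^ k) + g ^ n) * (g ^ n)⁻¹ = 0 := by
      rw [h1, zero_mul]
    rw [add_mul, mul_inv_cancel₀ (pow_ne_zero _ hg0), Finset.sum_mul, add_comm] at h2
    rw [← h2]
    congr 1
    refine Finset.sum_congr rfl fun k hk => ?_
    rw [Finset.mem_range] at hk
    rw [mul_assoc]
    congr 1
    rw [eq_comm, ← div_eq_mul_inv, div_eq_iff (pow_ne_zero _ hg0), ← pow_sub_mul_pow g hk.le,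
      ← mul_assoc, inv_mul_cancel₀ (pow_ne_zero _ hg0), one_mul]
  have hpos : ∀ s : Finset ℕ, (∀ k ∈ s, k < n) →
      (∑ k ∈ s, P.coeff k * (g ^ (n - k))⁻¹ = 0 ∨
        0 < v.ord (∑ k ∈ s, P.coeff k * (g ^ (n - k))⁻¹)) := by
    intro s
    induction s using Finset.induction_on with
    | empty => simp
    | insert a s ha ih =>
      intro hs
      rw [Finset.sum_insert ha]
      have h1 := hmem a (hs a (Finset.mem_insert_self a s))
      have h2 := ih fun k hk => hs k (Finset.mem_insert_of_mem hk)
      rcases h1 with h1 | h1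
      · rw [h1, zero_add]; exact h2
      rcases h2 with h2 | h2
      · rw [h2, add_zero]; exact Or.inr h1
      by_cases h : P.coeff a * (g ^ (n - a))⁻¹ + ∑ k ∈ s, P.coeff k * (g ^ (n - k))⁻¹ = 0
      · exact Or.inl h
      · exact Or.inr (lt_of_lt_of_le (lt_min h1 h2) (FFPlaces.min_ord_le v h))
  rcases hpos (Finset.range n) (fun k hk => Finset.mem_range.mp hk) with h | h
  · rw [h, neg_zero] at hsum; exact one_ne_zero hsum
  · have := congrArg v.ord hsum
    rw [v.ord_one, FFPlaces.ord_neg] at this
    omega

/-- A place dominated by a finite family of places belongs to it. -/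
theorem exists_eq_of_integral (v : Place K F) {ι : Type*} [Fintype ι] (w : ι → Place K F)
    (h : ∀ g : F, (∀ i, 0 ≤ (w i).ord g) →
      ∃ P : F[X], P.Monic ∧ (∀ k, 0 ≤ v.ord (P.coeff k)) ∧ P.eval g = 0) :
    ∃ i, w i = v := by
  classical
  by_contra hne
  push Not at hne
  obtain ⟨g, -, hgv, hgw⟩ := FunctionField.exists_ord_neg_pos v (Finset.univ.image w)
  obtain ⟨P, hP, hc, hr⟩ := h g fun i =>
    (hgw (w i) (Finset.mem_image_of_mem w (Finset.mem_univ i)) (hne i)).le
  have := ord_nonneg_of_root v hP hc hr
  omega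

end Fermat.Agent.KummerDivisor
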